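import Mathlib

/-!
# GATE-R / H : the valuation-ring side of (LT)

(LT) at ONE valuation subring `O` of a field `K`, in hypothesis form (Mathlib only).

Rows `R p j = lam p * V p j` (scaling at the centre `∞`), block Newton factorisation
`det (V ∘ c) = Delta * det (DD ∘ c)` for every column map `c`, divided differences `DD p j ∈ O`,
`DD p j ≡ tau p j` modulo the nonunits of `O` (`tau` with values in a field of constants `k ⊆ O`),
and one column map `c0` with `det (tau ∘ c0) ≠ 0`.  Then every minor of `R` has valuation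
`≤ v ((∏ p, lam p) * Delta)`, with equality at `c0`.

We also provide the small calculus `IsMaxVal` ("the tuple `X` has maximal valuation `W`, and the
maximum is attained") for tensor products of tuples, ending in the two inequalities that the
valuative height machine (HM) asks for.
-/

set_option autoImplicit false

namespace Fermat.Agent.GR.H.Star.LTAsm

open Matrix

variable {K : Type*} [Field K] (O : ValuationSubring K)

/-! ### Determinants of matrices with entries in a valuation subring -/

/-- A square matrix with entries in `O` has determinant in `O`. -/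
theorem det_mem {n : Type*} [Fintype n] [DecidableEq n] (M : Matrix n n K)
    (h : ∀ p q, M p q ∈ O) : M.det ∈ O := by
  set M' : Matrix n n O := fun p q => ⟨M p q, h p q⟩ with hM'
  have hM : M = O.subtype.mapMatrix M' := by
    ext p q; rfl
  rw [hM, ← RingHom.map_det]
  exact (M'.det).2

/-- Two square matrices with entries in `O` which are entrywise congruent modulo the nonunits of
`O` have determinants congruent modulo the nonunits. -/
theorem det_sub_det_mem_nonunits {n : Type*} [Fintype n] [DecidableEq n] (M M₀ : Matrix n n K)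
    (h : ∀ p q, M p q ∈ O) (h₀ : ∀ p q, M₀ p q ∈ O)
    (hc : ∀ p q, M p q - M₀ p q ∈ O.nonunits) : M.det - M₀.det ∈ O.nonunits := by
  set M' : Matrix n n O := fun p q => ⟨M p q, h p q⟩ with hM'
  set M₀' : Matrix n n O := fun p q => ⟨M₀ p q, h₀ p q⟩ with hM₀'
  have hM : M = O.subtype.mapMatrix M' := by
    ext p q; rfl
  have hM₀ : M₀ = O.subtype.mapMatrix M₀' := by
    ext p q; rfl
  let π := Ideal.Quotient.mk (IsLocalRing.maximalIdeal O)
  have hπ : π.mapMatrix M' = π.mapMatrix M₀' := by
    ext p q
    simp only [RingHom.mapMatrix_apply, Matrix.map_apply]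
    rw [Ideal.Quotient.eq]
    have := hc p q
    rw [show M p q - M₀ p q = ((M' p q - M₀' p q : O) : K) from rfl] at this
    exact (ValuationSubring.coe_mem_nonunits_iff).1 this
  have hdet : π M'.det = π M₀'.det := by
    rw [RingHom.map_det, RingHom.map_det, hπ]
  rw [Ideal.Quotient.eq] at hdet
  rw [hM, hM₀, ← RingHom.map_det, ← RingHom.map_det]
  exact (ValuationSubring.coe_mem_nonunits_iff).2 hdet

/-- If `u` has valuation `1` and `x - u` is a nonunit then `x` has valuation `1`. -/
theorem valuation_eq_one_of_sub_mem_nonunits {x u : K} (hu : O.valuation u = 1)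
    (hx : x - u ∈ O.nonunits) : O.valuation x = 1 := by
  have h1 : O.valuation (x - u) < O.valuation u := by
    rw [hu]; exact hx
  have h2 : O.valuation (u + (x - u)) = O.valuation u :=
    Valuation.map_add_eq_of_lt_left O.valuation h1
  rw [show u + (x - u) = x by ring] at h2
  rw [h2, hu]

/-- Nonzero constants (elements of a field `k ⊆ O`) have valuation `1`. -/
theorem valuation_algebraMap_eq_one {k : Type*} [Field k] [Algebra k K]
    (hk : ∀ x : k, algebraMap k K x ∈ O) {x : k} (hx : x ≠ 0) :
    O.valuation (algebraMap k K x) = 1 := by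
  have h1 : O.valuation (algebraMap k K x) ≤ 1 := (O.valuation_le_one_iff _).2 (hk x)
  have h2 : O.valuation (algebraMap k K x⁻¹) ≤ 1 := (O.valuation_le_one_iff _).2 (hk x⁻¹)
  have h3 : O.valuation (algebraMap k K x) * O.valuation (algebraMap k K x⁻¹) = 1 := by
    rw [← map_mul, ← map_mul, mul_inv_cancel₀ hx, map_one, map_one]
  refine le_antisymm h1 ?_
  by_contra hlt
  rw [not_le] at hlt
  have : O.valuation (algebraMap k K x) * O.valuation (algebraMap k K x⁻¹) < 1 := by
    calc O.valuation (algebraMap k K x) * O.valuation (algebraMap k K x⁻¹)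
        ≤ O.valuation (algebraMap k K x) * 1 := mul_le_mul' le_rfl h2
      _ = O.valuation (algebraMap k K x) := mul_one _
      _ < 1 := hlt
  rw [h3] at this
  exact lt_irrefl _ this

/-! ### (LT) at one valuation ring -/

section LT

variable {ι κ : Type*} [Fintype ι] [DecidableEq ι]

/-- Scaling the rows: `det (lam p * V p (c q)) = (∏ lam) * det (V p (c q))`. -/
theorem det_scaled (lam : ι → K) (V : ι → κ → K) (c : ι → κ) :
    Matrix.det (Matrix.of fun p q => lam p * V p (c q)) =
      (∏ p, lam p) * Matrix.det (Matrix.of fun p q => V p (c q)) :=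
  Matrix.det_mul_column lam (Matrix.of fun p q => V p (c q))

/-- **(LT), upper bound.** Every minor of the scaled evaluation matrix has valuation at most
`v ((∏ lam) * Delta)`. -/
theorem lt_le (lam : ι → K) (V DD : ι → κ → K) (Delta : K)
    (hfac : ∀ c : ι → κ,
      Matrix.det (Matrix.of fun p q => V p (c q)) =
        Delta * Matrix.det (Matrix.of fun p q => DD p (c q)))
    (hint : ∀ p j, DD p j ∈ O) (c : ι → κ) :
    O.valuation (Matrix.det (Matrix.of fun p q => lam p * V p (c q))) ≤
      O.valuation ((∏ p, lam p) * Delta) := by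
  rw [det_scaled, hfac c, ← mul_assoc, map_mul]
  have h1 : O.valuation (Matrix.det (Matrix.of fun p q => DD p (c q))) ≤ 1 :=
    (O.valuation_le_one_iff _).2 (det_mem O _ fun p q => hint p (c q))
  calc O.valuation ((∏ p, lam p) * Delta) *
        O.valuation (Matrix.det (Matrix.of fun p q => DD p (c q)))
      ≤ O.valuation ((∏ p, lam p) * Delta) * 1 := mul_le_mul' le_rfl h1
    _ = O.valuation ((∏ p, lam p) * Delta) := mul_one _

/-- **(LT), equality.** At a column map `c0` where the residue matrix `tau ∘ c0` is invertible the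
minor has valuation exactly `v ((∏ lam) * Delta)`. -/
theorem lt_eq {k : Type*} [Field k] [Algebra k K] (hk : ∀ x : k, algebraMap k K x ∈ O)
    (lam : ι → K) (V DD : ι → κ → K) (Delta : K)
    (hfac : ∀ c : ι → κ,
      Matrix.det (Matrix.of fun p q => V p (c q)) =
        Delta * Matrix.det (Matrix.of fun p q => DD p (c q)))
    (hint : ∀ p j, DD p j ∈ O) (tau : ι → κ → k)
    (hres : ∀ p j, DD p j - algebraMap k K (tau p j) ∈ O.nonunits)
    (c0 : ι → κ) (hosc : Matrix.det (Matrix.of fun p q => tau p (c0 q)) ≠ 0) :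
    O.valuation (Matrix.det (Matrix.of fun p q => lam p * V p (c0 q))) =
      O.valuation ((∏ p, lam p) * Delta) := by
  rw [det_scaled, hfac c0, ← mul_assoc, map_mul]
  have hT : Matrix.det (Matrix.of fun p q => algebraMap k K (tau p (c0 q))) =
      algebraMap k K (Matrix.det (Matrix.of fun p q => tau p (c0 q))) := by
    rw [RingHom.map_det]; rfl
  have hu : O.valuation (Matrix.det (Matrix.of fun p q => algebraMap k K (tau p (c0 q)))) = 1 := by
    rw [hT]; exact valuation_algebraMap_eq_one O hk hosc
  have hd : Matrix.det (Matrix.of fun p q => DD p (c0 q)) -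
      Matrix.det (Matrix.of fun p q => algebraMap k K (tau p (c0 q))) ∈ O.nonunits :=
    det_sub_det_mem_nonunits O _ _ (fun p q => hint p (c0 q)) (fun p q => hk _)
      (fun p q => hres p (c0 q))
  rw [valuation_eq_one_of_sub_mem_nonunits O hu hd, mul_one]

end LT

/-! ### Tuples with an attained maximal valuation -/

/-- The tuple `X` has all valuations `≤ W`, and `W` is attained. -/
def IsMaxVal {ι : Type*} (X : ι → K) (W : O.ValueGroup) : Prop :=
  (∀ i, O.valuation (X i) ≤ W) ∧ ∃ i, O.valuation (X i) = W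

variable {O}

theorem IsMaxVal.le {ι : Type*} {X : ι → K} {W : O.ValueGroup} (h : IsMaxVal O X W) (i : ι) :
    O.valuation (X i) ≤ W := h.1 i

theorem IsMaxVal.exists_eq {ι : Type*} {X : ι → K} {W : O.ValueGroup} (h : IsMaxVal O X W) :
    ∃ i, O.valuation (X i) = W := h.2

/-- (LT) packaged: the tuple of all minors of the scaled evaluation matrix has attained maximal
valuation `v ((∏ lam) * Delta)`. -/
theorem isMaxVal_minors {ι κ : Type*} [Fintype ι] [DecidableEq ι] {k : Type*} [Field k]
    [Algebra k K] (hk : ∀ x : k, algebraMap k K x ∈ O)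
    (lam : ι → K) (V DD : ι → κ → K) (Delta : K)
    (hfac : ∀ c : ι → κ,
      Matrix.det (Matrix.of fun p q => V p (c q)) =
        Delta * Matrix.det (Matrix.of fun p q => DD p (c q)))
    (hint : ∀ p j, DD p j ∈ O) (tau : ι → κ → k)
    (hres : ∀ p j, DD p j - algebraMap k K (tau p j) ∈ O.nonunits)
    (c0 : ι → κ) (hosc : Matrix.det (Matrix.of fun p q => tau p (c0 q)) ≠ 0) :
    IsMaxVal O (fun c : ι → κ => Matrix.det (Matrix.of fun p q => lam p * V p (c q)))
      (O.valuation ((∏ p, lam p) * Delta)) :=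
  ⟨fun c => lt_le O lam V DD Delta hfac hint c,
    ⟨c0, lt_eq O hk lam V DD Delta hfac hint tau hres c0 hosc⟩⟩

/-- Reindexing along a surjection. -/
theorem IsMaxVal.comp_surjective {ι ι' : Type*} {X : ι → K} {W : O.ValueGroup}
    (h : IsMaxVal O X W) (e : ι' → ι) (he : Function.Surjective e) : IsMaxVal O (X ∘ e) W := by
  refine ⟨fun i => h.1 (e i), ?_⟩
  obtain ⟨i, hi⟩ := h.2
  obtain ⟨j, rfl⟩ := he i
  exact ⟨j, hi⟩

/-- Scaling a tuple by one element. -/
theorem IsMaxVal.const_mul {ι : Type*} {X : ι → K} {W : O.ValueGroup}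
    (h : IsMaxVal O X W) (z : K) : IsMaxVal O (fun i => z * X i) (O.valuation z * W) := by
  refine ⟨fun i => ?_, ?_⟩
  · rw [map_mul]; exact mul_le_mul' le_rfl (h.1 i)
  · obtain ⟨i, hi⟩ := h.2
    exact ⟨i, by rw [map_mul, hi]⟩

/-- Tensor product of two tuples. -/
theorem IsMaxVal.mul {ι ι' : Type*} {X : ι → K} {Y : ι' → K} {W W' : O.ValueGroup}
    (h : IsMaxVal O X W) (h' : IsMaxVal O Y W') :
    IsMaxVal O (fun ij : ι × ι' => X ij.1 * Y ij.2) (W * W') := by
  refine ⟨fun ij => ?_, ?_⟩
  · rw [map_mul]; exact mul_le_mul' (h.1 ij.1) (h'.1 ij.2)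
  · obtain ⟨i, hi⟩ := h.2
    obtain ⟨j, hj⟩ := h'.2
    exact ⟨(i, j), by rw [map_mul, hi, hj]⟩

/-- Tensor product of a finite family of tuples. -/
theorem IsMaxVal.pi {S : Type*} [Fintype S] {ι : S → Type*} {X : ∀ s, ι s → K}
    {W : S → O.ValueGroup} (h : ∀ s, IsMaxVal O (X s) (W s)) :
    IsMaxVal O (fun c : ∀ s, ι s => ∏ s, X s (c s)) (∏ s, W s) := by
  classical
  refine ⟨fun c => ?_, ?_⟩
  · rw [map_prod]; exact Finset.prod_le_prod' fun s _ => (h s).1 (c s)
  · choose i hi using fun s => (h s).2
    exact ⟨i, by rw [map_prod]; exact Finset.prod_congr rfl fun s _ => hi s⟩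

/-- Two tuples with the same attained maximal valuation satisfy the hypothesis of the valuative
height machine, in both directions. -/
theorem IsMaxVal.hm {ι ι' : Type*} {X : ι → K} {Y : ι' → K} {W : O.ValueGroup}
    (h : IsMaxVal O X W) (h' : IsMaxVal O Y W) :
    (∀ j, ∃ i, O.valuation (Y j) ≤ O.valuation (X i)) ∧
      (∀ i, ∃ j, O.valuation (X i) ≤ O.valuation (Y j)) := by
  obtain ⟨i₀, hi₀⟩ := h.2
  obtain ⟨j₀, hj₀⟩ := h'.2
  exact ⟨fun j => ⟨i₀, hi₀ ▸ h'.1 j⟩, fun i => ⟨j₀, hj₀ ▸ h.1 i⟩⟩

/-- Variant: the maximal valuations are the valuations of two elements of `K` which agree up to a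
unit of `O` (e.g. up to sign). -/
theorem IsMaxVal.hm_of_eq {ι ι' : Type*} {X : ι → K} {Y : ι' → K} {w w' : K}
    (h : IsMaxVal O X (O.valuation w)) (h' : IsMaxVal O Y (O.valuation w'))
    (hw : O.valuation w = O.valuation w') :
    (∀ j, ∃ i, O.valuation (Y j) ≤ O.valuation (X i)) ∧
      (∀ i, ∃ j, O.valuation (X i) ≤ O.valuation (Y j)) :=
  IsMaxVal.hm h (hw ▸ h')

/-- Final corollary for tensor tuples over two finite families: equal total weights give both
inequalities of the valuative height machine. -/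
theorem hm_pi {S S' : Type*} [Fintype S] [Fintype S'] {I : S → Type*} {I' : S' → Type*}
    {x : ∀ s, I s → K} {x' : ∀ s, I' s → K} {W : S → O.ValueGroup} {W' : S' → O.ValueGroup}
    (h : ∀ s, (∀ c, O.valuation (x s c) ≤ W s) ∧ ∃ c, O.valuation (x s c) = W s)
    (h' : ∀ s, (∀ c, O.valuation (x' s c) ≤ W' s) ∧ ∃ c, O.valuation (x' s c) = W' s)
    (hW : ∏ s, W s = ∏ s, W' s) :
    (∀ j : ∀ s, I' s, ∃ i : ∀ s, I s,
        O.valuation (∏ s, x' s (j s)) ≤ O.valuation (∏ s, x s (i s))) ∧
      (∀ i : ∀ s, I s, ∃ j : ∀ s, I' s,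
        O.valuation (∏ s, x s (i s)) ≤ O.valuation (∏ s, x' s (j s))) := by
  have hX : IsMaxVal O (fun c : ∀ s, I s => ∏ s, x s (c s)) (∏ s, W s) := IsMaxVal.pi h
  have hY : IsMaxVal O (fun c : ∀ s, I' s => ∏ s, x' s (c s)) (∏ s, W' s) := IsMaxVal.pi h'
  exact IsMaxVal.hm hX (hW ▸ hY)

end Fermat.Agent.GR.H.Star.LTAsm
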