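/-
GATE-R / node GR-H-STAR (helper3).  Mathlib-only.

Pair counting for the valuative Vandermonde weights of DESIGN-H v2.

A *monomial* is a finite family of factors `s ↦ (lev s, grp s)` (level and group of generic
points).  The (LT)-weight of one factor is
`wt a d L G = (∏_{p ∈ G} a p) ^ L * ∏_{p < p' ∈ G} d p p'`
(`a p` = the `∞`-scaling base of the point `p`, `d p p'` = the same-centre difference of
parameters, or `1`).  Two monomials are *balanced* if every point carries the same total level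
on both sides and every pair of points lies in the same number of groups on both sides; then
the products of the weights agree (`prod_wt_eq_of_balanced`).  The three identities
(★), (★∞1), (★∞2) are the balance checks `balanced_cube`, `balanced_inf1`, `balanced_inf2`.
-/
import Mathlib

open Finset

namespace Fermat.Agent.GR.H.Star.Weights

variable {M : Type*} [CommMonoid M] {T : Type*} [DecidableEq T] [LinearOrder T]

/-- ordered pairs `p < p'` inside `G` -/
def pairs (G : Finset T) : Finset (T × T) := (G ×ˢ G).filter fun pp => pp.1 < pp.2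

omit [DecidableEq T] in
theorem mem_pairs {G : Finset T} {pp : T × T} :
    pp ∈ pairs G ↔ pp.1 ∈ G ∧ pp.2 ∈ G ∧ pp.1 < pp.2 := by
  simp [pairs, and_assoc]

/-- the (LT)-weight of one factor -/
def wt (a : T → M) (d : T → T → M) (L : ℕ) (G : Finset T) : M :=
  (∏ p ∈ G, a p) ^ L * ∏ pp ∈ pairs G, d pp.1 pp.2

variable [Fintype T]

/-- total level carried by the point `p` -/
def levelAt {S : Type*} [Fintype S] (lev : S → ℕ) (grp : S → Finset T) (p : T) : ℕ :=
  ∑ s, if p ∈ grp s then lev s else 0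

/-- number of groups containing both `p` and `p'` -/
def pairCount {S : Type*} [Fintype S] (grp : S → Finset T) (pp : T × T) : ℕ :=
  ∑ s, if pp.1 ∈ grp s ∧ pp.2 ∈ grp s then 1 else 0

/-- two monomials are balanced -/
def Balanced {S S' : Type*} [Fintype S] [Fintype S'] (lev : S → ℕ) (grp : S → Finset T)
    (lev' : S' → ℕ) (grp' : S' → Finset T) : Prop :=
  (∀ p, levelAt lev grp p = levelAt lev' grp' p) ∧
    ∀ pp : T × T, pp.1 < pp.2 → pairCount grp pp = pairCount grp' pp

theorem prod_wt_eq {S : Type*} [Fintype S] (a : T → M) (d : T → T → M) (lev : S → ℕ)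
    (grp : S → Finset T) :
    ∏ s, wt a d (lev s) (grp s)
      = (∏ p, a p ^ levelAt lev grp p)
        * ∏ pp ∈ pairs (univ : Finset T), d pp.1 pp.2 ^ pairCount grp pp := by
  unfold wt
  rw [Finset.prod_mul_distrib]
  congr 1
  · -- level part
    have h1 : ∀ s, (∏ p ∈ grp s, a p) ^ lev s = ∏ p, a p ^ (if p ∈ grp s then lev s else 0) := by
      intro s
      rw [← Finset.prod_pow]
      rw [← Finset.prod_subset (Finset.subset_univ (grp s))]
      · exact Finset.prod_congr rfl fun p hp => by rw [if_pos hp]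
      · intro p _ hp; rw [if_neg hp, pow_zero]
    rw [Finset.prod_congr rfl fun s _ => h1 s, Finset.prod_comm]
    refine Finset.prod_congr rfl fun p _ => ?_
    rw [levelAt, Finset.prod_pow_eq_pow_sum]
  · -- pair part
    have h2 : ∀ s, ∏ pp ∈ pairs (grp s), d pp.1 pp.2
        = ∏ pp ∈ pairs (univ : Finset T),
            d pp.1 pp.2 ^ (if pp.1 ∈ grp s ∧ pp.2 ∈ grp s then 1 else 0) := by
      intro s
      have hsub : pairs (grp s) ⊆ pairs (univ : Finset T) := by
        intro pp hpp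
        rw [mem_pairs] at hpp ⊢
        exact ⟨mem_univ _, mem_univ _, hpp.2.2⟩
      rw [← Finset.prod_subset hsub]
      · refine Finset.prod_congr rfl fun pp hpp => ?_
        rw [mem_pairs] at hpp
        rw [if_pos ⟨hpp.1, hpp.2.1⟩, pow_one]
      · intro pp hpp hn
        rw [mem_pairs] at hpp hn
        rw [if_neg fun h => hn ⟨h.1, h.2, hpp.2.2⟩, pow_zero]
    rw [Finset.prod_congr rfl fun s _ => h2 s, Finset.prod_comm]
    refine Finset.prod_congr rfl fun pp _ => ?_
    rw [pairCount, Finset.prod_pow_eq_pow_sum]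

/-- **Weight identity**: balanced monomials have equal (LT)-weights. -/
theorem prod_wt_eq_of_balanced {S S' : Type*} [Fintype S] [Fintype S'] (a : T → M)
    (d : T → T → M) {lev : S → ℕ} {grp : S → Finset T} {lev' : S' → ℕ} {grp' : S' → Finset T}
    (h : Balanced lev grp lev' grp') :
    ∏ s, wt a d (lev s) (grp s) = ∏ s', wt a d (lev' s') (grp' s') := by
  rw [prod_wt_eq, prod_wt_eq]
  congr 1
  · exact Finset.prod_congr rfl fun p _ => by rw [h.1 p]
  · refine Finset.prod_congr rfl fun pp hpp => ?_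
    rw [mem_pairs] at hpp
    rw [h.2 pp hpp.2.2]

/-! ### The three balance checks -/

/-- (★): `[G₁∪G₂∪G₃][G₁][G₂][G₃]` vs `[G₁∪G₂][G₁∪G₃][G₂∪G₃]` at one level. -/
theorem balanced_cube (L : ℕ) {G₁ G₂ G₃ : Finset T} (h₁₂ : Disjoint G₁ G₂) (h₁₃ : Disjoint G₁ G₃)
    (h₂₃ : Disjoint G₂ G₃) :
    Balanced (fun _ : Fin 4 => L) ![G₁ ∪ G₂ ∪ G₃, G₁, G₂, G₃]
      (fun _ : Fin 3 => L) ![G₁ ∪ G₂, G₁ ∪ G₃, G₂ ∪ G₃] := by
  have d12 : ∀ p, p ∈ G₁ → p ∉ G₂ := fun p h1 h2 => Finset.disjoint_left.mp h₁₂ h1 h2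
  have d13 : ∀ p, p ∈ G₁ → p ∉ G₃ := fun p h1 h2 => Finset.disjoint_left.mp h₁₃ h1 h2
  have d23 : ∀ p, p ∈ G₂ → p ∉ G₃ := fun p h1 h2 => Finset.disjoint_left.mp h₂₃ h1 h2
  constructor
  · intro p
    simp only [levelAt, Fin.sum_univ_four, Fin.sum_univ_three, Matrix.cons_val_zero,
      Matrix.cons_val_one, Matrix.cons_val_two, Matrix.cons_val_three, Matrix.head_cons,
      Matrix.tail_cons, Finset.mem_union]
    by_cases a1 : p ∈ G₁
    · have a2 := d12 p a1
      have a3 := d13 p a1
      simp [a1, a2, a3]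
    · by_cases a2 : p ∈ G₂
      · have a3 := d23 p a2
        simp [a1, a2, a3]
      · by_cases a3 : p ∈ G₃ <;> simp [a1, a2, a3]
  · intro pp _
    simp only [pairCount, Fin.sum_univ_four, Fin.sum_univ_three, Matrix.cons_val_zero,
      Matrix.cons_val_one, Matrix.cons_val_two, Matrix.cons_val_three, Matrix.head_cons,
      Matrix.tail_cons, Finset.mem_union]
    by_cases a1 : pp.1 ∈ G₁
    · have a2 := d12 _ a1
      have a3 := d13 _ a1
      by_cases b1 : pp.2 ∈ G₁
      · have b2 := d12 _ b1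
        have b3 := d13 _ b1
        simp [a1, a2, a3, b1, b2, b3]
      · by_cases b2 : pp.2 ∈ G₂
        · have b3 := d23 _ b2
          simp [a1, a2, a3, b1, b2, b3]
        · by_cases b3 : pp.2 ∈ G₃ <;> simp [a1, a2, a3, b1, b2, b3]
    · by_cases a2 : pp.1 ∈ G₂
      · have a3 := d23 _ a2
        by_cases b1 : pp.2 ∈ G₁
        · have b2 := d12 _ b1
          have b3 := d13 _ b1
          simp [a1, a2, a3, b1, b2, b3]
        · by_cases b2 : pp.2 ∈ G₂
          · have b3 := d23 _ b2
            simp [a1, a2, a3, b1, b2, b3]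
          · by_cases b3 : pp.2 ∈ G₃ <;> simp [a1, a2, a3, b1, b2, b3]
      · by_cases a3 : pp.1 ∈ G₃
        · by_cases b1 : pp.2 ∈ G₁
          · have b2 := d12 _ b1
            have b3 := d13 _ b1
            simp [a1, a2, a3, b1, b2, b3]
          · by_cases b2 : pp.2 ∈ G₂
            · have b3 := d23 _ b2
              simp [a1, a2, a3, b1, b2, b3]
            · by_cases b3 : pp.2 ∈ G₃ <;> simp [a1, a2, a3, b1, b2, b3]
        · simp [a1, a2, a3]

/-- (★∞1): `[G₁∪G₂]_L [G₁]_{L+1} [G₂]_{L+1}` vs `[G₁∪G₂]_{L+1} [G₁]_L [G₂]_L`. -/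
theorem balanced_inf1 (L : ℕ) {G₁ G₂ : Finset T} (h₁₂ : Disjoint G₁ G₂) :
    Balanced ![L, L + 1, L + 1] ![G₁ ∪ G₂, G₁, G₂] ![L + 1, L, L] ![G₁ ∪ G₂, G₁, G₂] := by
  have d12 : ∀ p, p ∈ G₁ → p ∉ G₂ := fun p h1 h2 => Finset.disjoint_left.mp h₁₂ h1 h2
  constructor
  · intro p
    simp only [levelAt, Fin.sum_univ_three, Matrix.cons_val_zero,
      Matrix.cons_val_one, Matrix.cons_val_two, Matrix.head_cons,
      Matrix.tail_cons, Finset.mem_union]
    by_cases a1 : p ∈ G₁
    · have a2 := d12 p a1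
      simp [a1, a2]; omega
    · by_cases a2 : p ∈ G₂ <;> simp [a1, a2]; omega
  · intro pp _
    rfl

/-- (★∞2): `[G]_{L+2} [G]_L` vs `[G]_{L+1} [G]_{L+1}`. -/
theorem balanced_inf2 (L : ℕ) (G : Finset T) :
    Balanced ![L + 2, L] ![G, G] ![L + 1, L + 1] ![G, G] := by
  constructor
  · intro p
    simp only [levelAt, Fin.sum_univ_two, Matrix.cons_val_zero, Matrix.cons_val_one,
      Matrix.head_cons]
    by_cases a1 : p ∈ G <;> simp [a1]; omega
  · intro pp _
    rfl

end Fermat.Agent.GR.H.Star.Weights
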