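/-
GATE-R / node GR-H-STAR (helper3).  Mathlib + helper21 LT/Newton + helper90 Star/LTAsm.

(LT) for the Plücker tuple of a group `G` of generic points at ONE valuation subring, with the
weight in the spelling of `Star/Weights`, and the (HM) hypothesis for balanced monomials.

* `isMaxVal_of_block`   : block Newton factorisation + integral block divided differences with
                          residues `tau` + one nonzero `tau`-minor ⟹ the tuple of all minors of
                          the scaled matrix has attained maximal valuation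
                          `v ((∏ lam) * ∏_{same-centre pairs} (τ p' − τ p))`.
* `prod_blockPairs_subtype`, `weight_eq_wt` : for rows `↥G`, this weight is `Weights.wt a d L G`.
* `isMaxVal_plucker`    : the same with the weight `Weights.wt`.
* `hm_of_balanced`      : balanced monomials of such tuples satisfy both (HM) inequalities.
-/
import Mathlib
import Fermat.Agent.GR.H.LT.Newton
import Fermat.Agent.GR.H.Star.LTAsm
import Fermat.Agent.GR.H.Star.Weights

open Finset

namespace Fermat.Agent.GR.H.Star.LT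

open Fermat.Agent.GR.H.LT.Newton Fermat.Agent.GR.H.Star.LTAsm Fermat.Agent.GR.H.Star.Weights

variable {K : Type*} [Field K] (O : ValuationSubring K) {k : Type*} [Field k] [Algebra k K]

section Block

variable {ι κ : Type*} [Fintype ι] [DecidableEq ι] [LinearOrder ι] {Q : Type*} [DecidableEq Q]

/-- (LT) at one valuation subring, rows in any finite linear order, blocks = fibres of `cen`. -/
theorem isMaxVal_of_block (hk : ∀ x : k, algebraMap k K x ∈ O) (cen : ι → Q) (τ : ι → K)
    (hinj : ∀ p p', cen p = cen p' → τ p = τ p' → p = p') (lam : ι → K) (V : ι → κ → K)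
    (hint : ∀ p j, DD cen τ V p j ∈ O) (tau : ι → κ → k)
    (hres : ∀ p j, DD cen τ V p j - algebraMap k K (tau p j) ∈ O.nonunits)
    (c0 : ι → κ) (hosc : Matrix.det (Matrix.of fun p q => tau p (c0 q)) ≠ 0) :
    IsMaxVal O (fun c : ι → κ => Matrix.det (Matrix.of fun p q => lam p * V p (c q)))
      (O.valuation ((∏ p, lam p) * ∏ x ∈ blockPairs cen, (τ x.2 - τ x.1))) :=
  isMaxVal_minors hk lam V (DD cen τ V) _
    (fun c => det_block_pairs cen τ hinj V c) hint tau hres c0 hosc

end Block

section Subtype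

variable {T : Type*} [DecidableEq T] [LinearOrder T] {Q : Type*} [DecidableEq Q]

/-- the same-centre pair weight -/
def pairW (cen : T → Q) (τ : T → K) (p p' : T) : K := if cen p = cen p' then τ p' - τ p else 1

theorem prod_blockPairs_subtype (G : Finset T) (cen : T → Q) (τ : T → K) :
    ∏ x ∈ blockPairs (fun p : ↥G => cen p), (τ (x.2 : T) - τ (x.1 : T))
      = ∏ pp ∈ pairs G, pairW cen τ pp.1 pp.2 := by
  have h1 : ∏ pp ∈ pairs G, pairW cen τ pp.1 pp.2
      = ∏ pp ∈ (pairs G).filter (fun pp => cen pp.1 = cen pp.2), (τ pp.2 - τ pp.1) := by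
    rw [Finset.prod_filter]
    exact Finset.prod_congr rfl fun pp _ => rfl
  rw [h1]
  refine Finset.prod_bij (fun x _ => ((x.1 : T), (x.2 : T))) ?_ ?_ ?_ ?_
  · intro x hx
    obtain ⟨h1, h2⟩ := mem_blockPairs.mp hx
    rw [Finset.mem_filter, mem_pairs]
    exact ⟨⟨x.1.2, x.2.2, h2⟩, h1⟩
  · intro x _ y _ hxy
    have e1 : (x.1 : T) = y.1 := congrArg Prod.fst hxy
    have e2 : (x.2 : T) = y.2 := congrArg Prod.snd hxy
    exact Prod.ext (Subtype.ext e1) (Subtype.ext e2)
  · intro pp hpp
    rw [Finset.mem_filter, mem_pairs] at hpp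
    obtain ⟨⟨h1, h2, h3⟩, h4⟩ := hpp
    refine ⟨(⟨pp.1, h1⟩, ⟨pp.2, h2⟩), ?_, rfl⟩
    exact mem_blockPairs.mpr ⟨h4, h3⟩
  · intro x _
    rfl

/-- the weight of (LT) for rows `↥G` in the spelling of `Star/Weights` -/
theorem weight_eq_wt (G : Finset T) (cen : T → Q) (τ : T → K) (a : T → K) (L : ℕ) :
    (∏ p : ↥G, a p ^ L) * ∏ x ∈ blockPairs (fun p : ↥G => cen p), (τ (x.2 : T) - τ (x.1 : T))
      = wt a (pairW cen τ) L G := by
  rw [prod_blockPairs_subtype, wt, Finset.prod_pow, Finset.prod_coe_sort G fun p => a p]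

/-- (LT) for the Plücker tuple of the group `G` at level `L`: the evaluation matrix `E`
restricted to the rows `G` is `a p ^ L * V p j`, the block divided differences of `V` along the
nodes `τ` are integral with residues `tau`, and one `tau`-minor is nonzero. -/
theorem isMaxVal_plucker (hk : ∀ x : k, algebraMap k K x ∈ O) {κ : Type*} (G : Finset T)
    (cen : T → Q) (τ : T → K)
    (hinj : ∀ p ∈ G, ∀ p' ∈ G, cen p = cen p' → τ p = τ p' → p = p') (a : T → K) (L : ℕ)
    (E V : T → κ → K) (hE : ∀ p ∈ G, ∀ j, E p j = a p ^ L * V p j)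
    (hint : ∀ (p : ↥G) j, DD (fun p : ↥G => cen p) (fun p : ↥G => τ p)
      (fun (p : ↥G) j => V p j) p j ∈ O)
    (tau : ↥G → κ → k)
    (hres : ∀ (p : ↥G) j, DD (fun p : ↥G => cen p) (fun p : ↥G => τ p)
      (fun (p : ↥G) j => V p j) p j - algebraMap k K (tau p j) ∈ O.nonunits)
    (c0 : ↥G → κ) (hosc : Matrix.det (Matrix.of fun p q => tau p (c0 q)) ≠ 0) :
    IsMaxVal O (fun c : ↥G → κ => Matrix.det (Matrix.of fun p q : ↥G => E p (c q)))
      (O.valuation (wt a (pairW cen τ) L G)) := by
  have h := isMaxVal_of_block O hk (fun p : ↥G => cen p) (fun p : ↥G => τ p)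
    (fun p p' h1 h2 => Subtype.ext (hinj p p.2 p' p'.2 h1 h2)) (fun p : ↥G => a p ^ L)
    (fun (p : ↥G) j => V p j) hint tau hres c0 hosc
  rw [weight_eq_wt] at h
  have e : (fun c : ↥G → κ => Matrix.det (Matrix.of fun p q : ↥G => E p (c q)))
      = fun c : ↥G → κ => Matrix.det (Matrix.of fun p q : ↥G => a p ^ L * V p (c q)) := by
    funext c
    congr 1
    ext p q
    exact hE p p.2 (c q)
  rw [e]
  exact h

end Subtype

section Balanced

variable {T : Type*} [DecidableEq T] [LinearOrder T] [Fintype T]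

/-- Balanced monomials of tuples with the (LT) weights satisfy both inequalities of the
valuative height machine. -/
theorem hm_of_balanced {S S' : Type*} [Fintype S] [Fintype S'] (a : T → K) (d : T → T → K)
    {lev : S → ℕ} {grp : S → Finset T} {lev' : S' → ℕ} {grp' : S' → Finset T}
    (hbal : Balanced lev grp lev' grp') {I : S → Type*} {I' : S' → Type*}
    {X : ∀ s, I s → K} {Y : ∀ s, I' s → K}
    (hX : ∀ s, IsMaxVal O (X s) (O.valuation (wt a d (lev s) (grp s))))
    (hY : ∀ s, IsMaxVal O (Y s) (O.valuation (wt a d (lev' s) (grp' s)))) :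
    (∀ j : ∀ s, I' s, ∃ i : ∀ s, I s,
        O.valuation (∏ s, Y s (j s)) ≤ O.valuation (∏ s, X s (i s))) ∧
      (∀ i : ∀ s, I s, ∃ j : ∀ s, I' s,
        O.valuation (∏ s, X s (i s)) ≤ O.valuation (∏ s, Y s (j s))) := by
  refine hm_pi (fun s => hX s) (fun s => hY s) ?_
  rw [← map_prod, ← map_prod, prod_wt_eq_of_balanced a d hbal]

end Balanced

end Fermat.Agent.GR.H.Star.LT
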