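/-
GATE-R / node GR-H-STAR (helper3).  Mathlib-only.

The *link* of DESIGN-H v2 without sign bookkeeping (squares trick), and the passage from the
(HM) conclusion for the squared tensor tuples to the Plücker height identity.

* `IsSpec`                    : helper23's notion of (linked) specialisation, same body.
* `isSpec_of_algHom_ext`      : specialisation along `φ : B →ₐ[k] kb` (`kb ⊇ k` a bigger field)
                                whose values on the two tuples are `k`-rational.
* `tens`, `sq`                : tensor tuple of a family of tuples, tensor square.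
* `dom_tens_sq`               : domination passes to tensor squares.
* `sq_mem_range_of_perm`      : if every `σ ∈ Gal(kb/k)` permutes the rows of `E`, and the minors
                                of `E` are `eps * (rational)`, then `eps ^ 2` is rational.
* `star_abstract`             : (HM) conclusion for `(sq (tens X), sq (tens Y))` ⟹ uniform bound
                                for `|∑ logHeight w' − ∑ logHeight w|` over all specialisations
                                `φ (X s i) = eps s * w s i` with `eps s ^ 2` rational.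
-/
import Mathlib

open Finset

namespace Fermat.Agent.GR.H.Star.Rat

section Spec

variable {k : Type*} [Field k] {KK : Type*} [Field KK] [Algebra k KK] {ι ι' : Type*}

/-- linked specialisation of a pair of tuples (helper23 4731, same body) -/
def IsSpec (x : ι → KK) (y : ι' → KK) (ξ : ι → k) (η : ι' → k) : Prop :=
  ∀ (n : ℕ) (G : MvPolynomial (ι ⊕ ι') k), G.IsHomogeneous n →
    MvPolynomial.aeval (Sum.elim x y) G = 0 → MvPolynomial.eval (Sum.elim ξ η) G = 0

/-- Specialisation along an algebra hom into a bigger field with rational values. -/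
theorem isSpec_of_algHom_ext {kb : Type*} [Field kb] [Algebra k kb] (B : Subalgebra k KK)
    (φ : B →ₐ[k] kb) {x : ι → KK} {y : ι' → KK} (hx : ∀ i, x i ∈ B) (hy : ∀ j, y j ∈ B)
    (ξ : ι → k) (η : ι' → k) (hξ : ∀ i, φ ⟨x i, hx i⟩ = algebraMap k kb (ξ i))
    (hη : ∀ j, φ ⟨y j, hy j⟩ = algebraMap k kb (η j)) : IsSpec x y ξ η := by
  intro n G _ h0
  set z : ι ⊕ ι' → B := Sum.elim (fun i => ⟨x i, hx i⟩) (fun j => ⟨y j, hy j⟩) with hz
  have h1 : B.val (MvPolynomial.aeval z G) = MvPolynomial.aeval (Sum.elim x y) G := by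
    rw [← AlgHom.comp_apply, MvPolynomial.comp_aeval]
    congr 2
    funext a
    rcases a with a | a <;> simp [hz]
  have h2 : MvPolynomial.aeval z G = 0 := by
    apply Subtype.ext
    have : (B.val (MvPolynomial.aeval z G) : KK) = 0 := by rw [h1, h0]
    simpa using this
  have h3 : φ (MvPolynomial.aeval z G)
      = algebraMap k kb (MvPolynomial.eval (Sum.elim ξ η) G) := by
    rw [← AlgHom.comp_apply, MvPolynomial.comp_aeval]
    have : (fun a => φ (z a)) = fun a => algebraMap k kb (Sum.elim ξ η a) := by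
      funext a
      rcases a with a | a
      · simp [hz, hξ]
      · simp [hz, hη]
    rw [this]
    exact MvPolynomial.aeval_algebraMap_apply kb (Sum.elim ξ η) G
  rw [h2, map_zero] at h3
  exact (map_eq_zero (algebraMap k kb)).mp h3.symm

end Spec

section Tens

variable {R : Type*} [CommMonoid R]

/-- tensor tuple of a finite family of tuples -/
def tens {S : Type*} [Fintype S] {I : S → Type*} (X : ∀ s, I s → R) : (∀ s, I s) → R :=
  fun J => ∏ s, X s (J s)

/-- tensor square of a tuple -/
def sq {ι : Type*} (x : ι → R) : ι × ι → R := fun a => x a.1 * x a.2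

end Tens

section Dom

variable {KK : Type*} [Field KK] {Γ : Type*} [LinearOrderedCommGroupWithZero Γ]
  (v : Valuation KK Γ) {ι ι' : Type*}

/-- domination passes to tensor squares -/
theorem dom_sq {x : ι → KK} {y : ι' → KK} (h : ∀ j, ∃ i, v (y j) ≤ v (x i)) :
    ∀ j, ∃ i, v (sq y j) ≤ v (sq x i) := by
  rintro ⟨j, j'⟩
  obtain ⟨i, hi⟩ := h j
  obtain ⟨i', hi'⟩ := h j'
  refine ⟨(i, i'), ?_⟩
  simp only [sq, map_mul]
  exact mul_le_mul' hi hi'

end Dom

section Galois

variable {k kb : Type*} [Field k] [Field kb] [Algebra k kb]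

/-- If every automorphism of `kb/k` permutes the rows of `E`, and the maximal minors of `E` are
`eps * (rational)` with one rational factor nonzero, then `eps ^ 2` is fixed by all
automorphisms. -/
theorem sq_fixed_of_perm {ι κ : Type*} [Fintype ι] [DecidableEq ι] (E : Matrix ι κ kb)
    (hperm : ∀ σ : kb ≃ₐ[k] kb, ∃ π : Equiv.Perm ι, ∀ i j, σ (E i j) = E (π i) j)
    (eps : kb) (xi : (ι → κ) → k)
    (hmin : ∀ J : ι → κ, (E.submatrix id J).det = eps * algebraMap k kb (xi J))
    (hne : ∃ J, xi J ≠ 0) (σ : kb ≃ₐ[k] kb) : σ (eps ^ 2) = eps ^ 2 := by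
  obtain ⟨π, hπ⟩ := hperm σ
  obtain ⟨J, hJ⟩ := hne
  have h1 : σ ((E.submatrix id J).det) = (Equiv.Perm.sign π : ℤ) * (E.submatrix id J).det := by
    have : σ ((E.submatrix id J).det) = ((E.submatrix id J).submatrix π id).det := by
      rw [show σ ((E.submatrix id J).det) = (σ : kb →+* kb) ((E.submatrix id J).det) from rfl,
        RingHom.map_det]
      congr 1
      ext i j
      simp [Matrix.map_apply, hπ]
    rw [this, Matrix.det_permute]
  rw [hmin J, map_mul, AlgEquiv.commutes] at h1
  have hJ' : algebraMap k kb (xi J) ≠ 0 := (map_ne_zero (algebraMap k kb)).mpr hJ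
  have h2 : σ eps = (Equiv.Perm.sign π : ℤ) * eps := by
    apply mul_right_cancel₀ hJ'
    rw [h1]; ring
  rw [map_pow, h2, mul_pow]
  rcases Int.units_eq_one_or (Equiv.Perm.sign π) with h | h <;> simp [h]

theorem sq_mem_range_of_perm [IsGalois k kb] {ι κ : Type*} [Fintype ι] [DecidableEq ι]
    (E : Matrix ι κ kb)
    (hperm : ∀ σ : kb ≃ₐ[k] kb, ∃ π : Equiv.Perm ι, ∀ i j, σ (E i j) = E (π i) j)
    (eps : kb) (xi : (ι → κ) → k)
    (hmin : ∀ J : ι → κ, (E.submatrix id J).det = eps * algebraMap k kb (xi J))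
    (hne : ∃ J, xi J ≠ 0) : eps ^ 2 ∈ Set.range (algebraMap k kb) :=
  (InfiniteGalois.mem_range_algebraMap_iff_fixed _).mpr
    fun σ => sq_fixed_of_perm E hperm eps xi hmin hne σ

end Galois

section Main

universe u v

variable {k : Type*} [Field k] [Height.AdmissibleAbsValues k] {kb : Type*} [Field kb]
  [Algebra k kb] {KK : Type*} [Field KK] [Algebra k KK]
  {S S' : Type u} [Fintype S] [Fintype S'] {I : S → Type v} {I' : S' → Type v}
  [∀ s, Finite (I s)] [∀ s, Finite (I' s)]

omit [Height.AdmissibleAbsValues k] [∀ s, Finite (I s)] in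
theorem tens_ne_zero {w : ∀ s, I s → k} (hw : ∀ s, w s ≠ 0) : tens w ≠ 0 := by
  have h : ∀ s, ∃ i, w s i ≠ 0 := fun s => Function.ne_iff.mp (hw s)
  choose J hJ using h
  refine Function.ne_iff.mpr ⟨J, ?_⟩
  simp only [tens, Pi.zero_apply]
  exact Finset.prod_ne_zero_iff.mpr fun s _ => hJ s

/-- height of the scaled tensor square of a tensor tuple -/
theorem logHeight_smul_sq_tens {w : ∀ s, I s → k} (hw : ∀ s, w s ≠ 0) {r : k} (hr : r ≠ 0) :
    Height.logHeight (fun a : (∀ s, I s) × (∀ s, I s) => r * sq (tens w) a)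
      = 2 * ∑ s, Height.logHeight (w s) := by
  have htw := tens_ne_zero hw
  have h1 : (fun a : (∀ s, I s) × (∀ s, I s) => r * sq (tens w) a)
      = r • (fun a : (∀ s, I s) × (∀ s, I s) => tens w a.1 * tens w a.2) := by
    funext a; simp [sq]
  rw [h1, Height.logHeight_smul_eq_logHeight _ hr, Height.logHeight_fun_mul_eq htw htw]
  have h2 : Height.logHeight (tens w) = ∑ s, Height.logHeight (w s) :=
    Height.logHeight_fun_prod_eq hw
  rw [h2]; ring

omit [Height.AdmissibleAbsValues k] [∀ s, Finite (I s)] in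
theorem tens_mem {B : Subalgebra k KK} {X : ∀ s, I s → KK} (hX : ∀ s i, X s i ∈ B)
    (J : ∀ s, I s) : tens X J ∈ B :=
  Subalgebra.prod_mem B fun s _ => hX s (J s)

omit [Height.AdmissibleAbsValues k] [∀ s, Finite (I s)] in
theorem sq_tens_mem {B : Subalgebra k KK} {X : ∀ s, I s → KK} (hX : ∀ s i, X s i ∈ B)
    (a : (∀ s, I s) × (∀ s, I s)) : sq (tens X) a ∈ B :=
  Subalgebra.mul_mem B (tens_mem hX a.1) (tens_mem hX a.2)

omit [Height.AdmissibleAbsValues k] [∀ s, Finite (I s)] in
/-- the value of a specialisation on the squared tensor tuple -/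
theorem map_sq_tens {B : Subalgebra k KK} (φ : B →ₐ[k] kb) {X : ∀ s, I s → KK}
    (hX : ∀ s i, X s i ∈ B) (w : ∀ s, I s → k) (eps : S → kb) (rs : S → k)
    (hrs : ∀ s, algebraMap k kb (rs s) = eps s ^ 2)
    (hφ : ∀ s i, φ ⟨X s i, hX s i⟩ = eps s * algebraMap k kb (w s i))
    (a : (∀ s, I s) × (∀ s, I s)) :
    φ ⟨sq (tens X) a, sq_tens_mem hX a⟩ = algebraMap k kb ((∏ s, rs s) * sq (tens w) a) := by
  have e : (⟨sq (tens X) a, sq_tens_mem hX a⟩ : B)
      = (∏ s, (⟨X s (a.1 s), hX s (a.1 s)⟩ : B)) * ∏ s, (⟨X s (a.2 s), hX s (a.2 s)⟩ : B) := by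
    apply Subtype.ext
    simp only [sq, tens, Subalgebra.coe_mul]
    rw [← Subalgebra.coe_val, map_prod, map_prod]
    rfl
  rw [e, map_mul, map_prod, map_prod]
  simp only [hφ, sq, tens, map_mul, map_prod, hrs, Finset.prod_mul_distrib]
  rw [Finset.prod_pow]
  ring

/-- **Abstract (★)**: the (HM) conclusion for the squared tensor tuples bounds the difference of
the sums of the heights of the rational parts, uniformly over all specialisations whose values are
`eps * (rational)` with `eps ^ 2` rational. -/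
theorem star_abstract (X : ∀ s, I s → KK) (Y : ∀ s, I' s → KK)
    (hHM : ∃ C : ℝ, ∀ (ξ : (∀ s, I s) × (∀ s, I s) → k) (η : (∀ s, I' s) × (∀ s, I' s) → k),
      IsSpec (sq (tens X)) (sq (tens Y)) ξ η →
        |Height.logHeight η - Height.logHeight ξ| ≤ C) :
    ∃ C : ℝ, ∀ (B : Subalgebra k KK) (φ : B →ₐ[k] kb) (hX : ∀ s i, X s i ∈ B)
      (hY : ∀ s i, Y s i ∈ B) (w : ∀ s, I s → k) (w' : ∀ s, I' s → k) (eps : S → kb)
      (eps' : S' → kb),
      (∀ s, w s ≠ 0) → (∀ s, w' s ≠ 0) → (∀ s, eps s ≠ 0) → (∀ s, eps' s ≠ 0) →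
      (∀ s, eps s ^ 2 ∈ Set.range (algebraMap k kb)) →
      (∀ s, eps' s ^ 2 ∈ Set.range (algebraMap k kb)) →
      (∀ s i, φ ⟨X s i, hX s i⟩ = eps s * algebraMap k kb (w s i)) →
      (∀ s i, φ ⟨Y s i, hY s i⟩ = eps' s * algebraMap k kb (w' s i)) →
      |∑ s, Height.logHeight (w' s) - ∑ s, Height.logHeight (w s)| ≤ C / 2 := by
  obtain ⟨C, hC⟩ := hHM
  refine ⟨C, ?_⟩
  intro B φ hX hY w w' eps eps' hw hw' heps heps' hr hr' hφ hφ'
  choose rs hrs using hr
  choose rs' hrs' using hr'
  have hrs0 : ∏ s, rs s ≠ 0 := by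
    refine Finset.prod_ne_zero_iff.mpr fun s _ h0 => ?_
    have := hrs s
    rw [h0, map_zero] at this
    exact pow_ne_zero 2 (heps s) this.symm
  have hrs0' : ∏ s, rs' s ≠ 0 := by
    refine Finset.prod_ne_zero_iff.mpr fun s _ h0 => ?_
    have := hrs' s
    rw [h0, map_zero] at this
    exact pow_ne_zero 2 (heps' s) this.symm
  have hspec : IsSpec (sq (tens X)) (sq (tens Y))
      (fun a => (∏ s, rs s) * sq (tens w) a) (fun a => (∏ s, rs' s) * sq (tens w') a) :=
    isSpec_of_algHom_ext B φ (sq_tens_mem hX) (sq_tens_mem hY) _ _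
      (map_sq_tens φ hX w eps rs hrs hφ) (map_sq_tens φ hY w' eps' rs' hrs' hφ')
  have h := hC _ _ hspec
  rw [logHeight_smul_sq_tens hw hrs0, logHeight_smul_sq_tens hw' hrs0'] at h
  rw [← mul_sub, abs_mul, abs_two] at h
  linarith

end Main

end Fermat.Agent.GR.H.Star.Rat
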