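/-
GATE-R / node GR-H-STAR (helper3).  Mathlib + HM (helper23) + Star/LT + Star/Rat.

The generic half of (★), (★∞1), (★∞2) in ONE statement.

* `plucker E G`      : the Plücker tuple of the rows `G` of an evaluation matrix `E`
                       (all column maps, rows = the subtype `↥G`).
* `AlgRes k O`       : the residue field of `O` is algebraic over `k` (elementary form).
* `HasLT O E ok`     : (LT) holds at `O`: point weights `a` and pair weights `d` such that every
                       Plücker tuple `plucker (E L) G` in the admissible range `ok L G` has attained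
                       maximal valuation `v (wt a d L G)`.
* `dom_of_hasLT`     : balanced monomials of Plücker tuples, tensor-squared, satisfy both (HM)
                       inequalities at every `O` where (LT) holds.
* `bound_of_hasLT`   : hence (given the valuative height machine for valuation rings with algebraic
                       residue field) the uniform bound over all specialisations `φ` whose values on
                       the factors are `eps * (rational)` with `eps ^ 2` rational.
-/
import Mathlib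
import Fermat.Agent.GR.H.HM
import Fermat.Agent.GR.H.Star.LT
import Fermat.Agent.GR.H.Star.Rat

open Finset

namespace Fermat.Agent.GR.H.Star.Generic

open Fermat.Agent.GR.H.Star.LTAsm Fermat.Agent.GR.H.Star.Weights Fermat.Agent.GR.H.Star.Rat

variable {k : Type*} [Field k] {KK : Type*} [Field KK] [Algebra k KK]

/-- the residue field of `O` is algebraic over `k` (elementary form) -/
def AlgRes (k : Type*) [Field k] {KK : Type*} [Field KK] [Algebra k KK]
    (O : ValuationSubring KK) : Prop :=
  ∀ a ∈ O, ∃ p : Polynomial k, p.Monic ∧ Polynomial.aeval a p ∈ O.nonunits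

variable {T : Type} [Fintype T] [DecidableEq T] [LinearOrder T]

/-- the Plücker tuple of the rows `G` of the matrix `E` -/
def plucker {κ : Type} (E : T → κ → KK) (G : Finset T) : (↥G → κ) → KK :=
  fun J => Matrix.det (Matrix.of fun p q : ↥G => E p (J q))

/-- (LT) holds at `O` for the family of evaluation matrices `E` in the range `ok`. -/
def HasLT (O : ValuationSubring KK) {κ : ℕ → Type} (E : ∀ L, T → κ L → KK)
    (ok : ℕ → Finset T → Prop) : Prop :=
  ∃ (a : T → KK) (d : T → T → KK), ∀ L G, ok L G →
    IsMaxVal O (plucker (E L) G) (O.valuation (wt a d L G))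

/-- the tuple of a monomial -/
def monTuple {κ : ℕ → Type} (E : ∀ L, T → κ L → KK) {S : Type} [Fintype S] (lev : S → ℕ)
    (grp : S → Finset T) : (∀ s, ↥(grp s) → κ (lev s)) → KK :=
  tens fun s => plucker (E (lev s)) (grp s)

theorem dom_of_hasLT {O : ValuationSubring KK} {κ : ℕ → Type} {E : ∀ L, T → κ L → KK}
    {ok : ℕ → Finset T → Prop} (hLT : HasLT O E ok) {S S' : Type} [Fintype S] [Fintype S']
    {lev : S → ℕ} {grp : S → Finset T} {lev' : S' → ℕ} {grp' : S' → Finset T}
    (hbal : Balanced lev grp lev' grp') (hok : ∀ s, ok (lev s) (grp s))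
    (hok' : ∀ s, ok (lev' s) (grp' s)) :
    (∀ j, ∃ i, O.valuation (sq (monTuple E lev' grp') j) ≤ O.valuation (sq (monTuple E lev grp) i))
      ∧ (∀ i, ∃ j,
        O.valuation (sq (monTuple E lev grp) i) ≤ O.valuation (sq (monTuple E lev' grp') j)) := by
  obtain ⟨a, d, h⟩ := hLT
  have h1 := LT.hm_of_balanced O a d hbal
    (X := fun s => plucker (E (lev s)) (grp s)) (Y := fun s => plucker (E (lev' s)) (grp' s))
    (fun s => h _ _ (hok s)) (fun s => h _ _ (hok' s))
  exact ⟨dom_sq O.valuation h1.1, dom_sq O.valuation h1.2⟩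

/-- **Generic (★)**.  `hHM` is the valuative height machine for valuation rings with algebraic
residue field, instantiated at the two squared monomial tuples. -/
theorem bound_of_hasLT [Height.AdmissibleAbsValues k] {kb : Type*} [Field kb] [Algebra k kb]
    {κ : ℕ → Type} [∀ L, Finite (κ L)] {E : ∀ L, T → κ L → KK}
    {ok : ℕ → Finset T → Prop}
    (hLT : ∀ O : ValuationSubring KK, (∀ c : k, algebraMap k KK c ∈ O) → AlgRes k O → HasLT O E ok)
    {S S' : Type} [Fintype S] [Fintype S']
    {lev : S → ℕ} {grp : S → Finset T} {lev' : S' → ℕ} {grp' : S' → Finset T}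
    (hbal : Balanced lev grp lev' grp') (hok : ∀ s, ok (lev s) (grp s))
    (hok' : ∀ s, ok (lev' s) (grp' s))
    (hHM : (∀ O : ValuationSubring KK, (∀ c : k, algebraMap k KK c ∈ O) → AlgRes k O →
        (∀ j, ∃ i, O.valuation (sq (monTuple E lev' grp') j)
            ≤ O.valuation (sq (monTuple E lev grp) i)) ∧
        (∀ i, ∃ j, O.valuation (sq (monTuple E lev grp) i)
            ≤ O.valuation (sq (monTuple E lev' grp') j))) →
      ∃ C : ℝ, ∀ (ξ : ((∀ s, ↥(grp s) → κ (lev s)) × (∀ s, ↥(grp s) → κ (lev s))) → k)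
        (η : ((∀ s, ↥(grp' s) → κ (lev' s)) × (∀ s, ↥(grp' s) → κ (lev' s))) → k),
        HM.IsSpec (sq (monTuple E lev grp)) (sq (monTuple E lev' grp')) ξ η →
        |Height.logHeight η - Height.logHeight ξ| ≤ C) :
    ∃ C : ℝ, ∀ (B : Subalgebra k KK) (φ : B →ₐ[k] kb)
      (hX : ∀ s J, plucker (E (lev s)) (grp s) J ∈ B)
      (hY : ∀ s J, plucker (E (lev' s)) (grp' s) J ∈ B)
      (w : ∀ s, (↥(grp s) → κ (lev s)) → k) (w' : ∀ s, (↥(grp' s) → κ (lev' s)) → k)
      (eps : S → kb) (eps' : S' → kb),
      (∀ s, w s ≠ 0) → (∀ s, w' s ≠ 0) → (∀ s, eps s ≠ 0) → (∀ s, eps' s ≠ 0) →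
      (∀ s, eps s ^ 2 ∈ Set.range (algebraMap k kb)) →
      (∀ s, eps' s ^ 2 ∈ Set.range (algebraMap k kb)) →
      (∀ s J, φ ⟨plucker (E (lev s)) (grp s) J, hX s J⟩ = eps s * algebraMap k kb (w s J)) →
      (∀ s J, φ ⟨plucker (E (lev' s)) (grp' s) J, hY s J⟩
        = eps' s * algebraMap k kb (w' s J)) →
      |∑ s, Height.logHeight (w' s) - ∑ s, Height.logHeight (w s)| ≤ C := by
  obtain ⟨C, hC⟩ := hHM fun O hO hres => dom_of_hasLT (hLT O hO hres) hbal hok hok'
  obtain ⟨C', hC'⟩ := star_abstract (k := k) (kb := kb)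
    (fun s => plucker (E (lev s)) (grp s)) (fun s => plucker (E (lev' s)) (grp' s)) ⟨C, hC⟩
  exact ⟨C' / 2, hC'⟩

end Fermat.Agent.GR.H.Star.Generic
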