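/-
GATE-R / node GR-H-STAR (helper3).  Mathlib + Star/Generic.

The interface between the generic half (`Generic.bound_of_hasLT`) and the concrete
specialisations: ONE hypothesis `hspec` — for every configuration of points `P : T → Pt` there is
ONE specialisation `(B, φ)` of the generic field such that for every good group `G` of rows at an
admissible level `L` the Plücker tuple lies in `B` and is sent by `φ` to `eps * (rational tuple w)`
with `eps ^ 2` rational and `logHeight w = Hh L P G` (the Plücker height of the divisor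
`∑_{p ∈ G} P p` at level `L`).
-/
import Mathlib
import Fermat.Agent.GR.H.Star.Generic

open Finset

namespace Fermat.Agent.GR.H.Star.Spec

open Fermat.Agent.GR.H.Star.LTAsm Fermat.Agent.GR.H.Star.Weights Fermat.Agent.GR.H.Star.Rat
  Fermat.Agent.GR.H.Star.Generic

variable {k : Type*} [Field k] {KK : Type*} [Field KK] [Algebra k KK]
  {T : Type} [Fintype T] [DecidableEq T] [LinearOrder T]

/-- the specialisation hypothesis for one configuration `P` -/
def SpecAt {kb : Type*} [Field kb] [Algebra k kb] [Height.AdmissibleAbsValues k]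
    {κ : ℕ → Type} (E : ∀ L, T → κ L → KK) (ok : ℕ → Finset T → Prop)
    {Pt : Type*} (GoodOn : (T → Pt) → Finset T → Prop) (Hh : ℕ → (T → Pt) → Finset T → ℝ)
    (P : T → Pt) : Prop :=
  ∃ (B : Subalgebra k KK) (φ : B →ₐ[k] kb), ∀ L G, GoodOn P G → ok L G →
    ∃ (hB : ∀ J, plucker (E L) G J ∈ B) (eps : kb) (w : (↥G → κ L) → k),
      eps ≠ 0 ∧ eps ^ 2 ∈ Set.range (algebraMap k kb) ∧ w ≠ 0 ∧
      (∀ J, φ ⟨plucker (E L) G J, hB J⟩ = eps * algebraMap k kb (w J)) ∧
      Height.logHeight w = Hh L P G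

/-- **(★) for balanced monomials, abstract specialisations.** -/
theorem bound_spec [Height.AdmissibleAbsValues k] {kb : Type*} [Field kb] [Algebra k kb]
    {κ : ℕ → Type} [∀ L, Finite (κ L)] {E : ∀ L, T → κ L → KK}
    {ok : ℕ → Finset T → Prop}
    (hLT : ∀ O : ValuationSubring KK, (∀ c : k, algebraMap k KK c ∈ O) → AlgRes k O → HasLT O E ok)
    {S S' : Type} [Fintype S] [Fintype S']
    {lev : S → ℕ} {grp : S → Finset T} {lev' : S' → ℕ} {grp' : S' → Finset T}
    (hbal : Balanced lev grp lev' grp') (hok : ∀ s, ok (lev s) (grp s))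
    (hok' : ∀ s, ok (lev' s) (grp' s))
    (hHM : (∀ O : ValuationSubring KK, (∀ c : k, algebraMap k KK c ∈ O) → AlgRes k O →
        (∀ j, ∃ i, O.valuation (sq (monTuple E lev' grp') j)
            ≤ O.valuation (sq (monTuple E lev grp) i)) ∧
        (∀ i, ∃ j, O.valuation (sq (monTuple E lev grp) i)
            ≤ O.valuation (sq (monTuple E lev' grp') j))) →
      ∃ C : ℝ, ∀ (ξ : ((∀ s, ↥(grp s) → κ (lev s)) × (∀ s, ↥(grp s) → κ (lev s))) → k)
        (η : ((∀ s, ↥(grp' s) → κ (lev' s)) × (∀ s, ↥(grp' s) → κ (lev' s))) → k),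
        HM.IsSpec (sq (monTuple E lev grp)) (sq (monTuple E lev' grp')) ξ η →
        |Height.logHeight η - Height.logHeight ξ| ≤ C)
    {Pt : Type*} (GoodOn : (T → Pt) → Finset T → Prop) (Hh : ℕ → (T → Pt) → Finset T → ℝ) :
    ∃ C : ℝ, ∀ P : T → Pt, SpecAt (k := k) (kb := kb) E ok GoodOn Hh P →
      (∀ s, GoodOn P (grp s)) → (∀ s, GoodOn P (grp' s)) →
      |∑ s, Hh (lev' s) P (grp' s) - ∑ s, Hh (lev s) P (grp s)| ≤ C := by
  obtain ⟨C, hC⟩ := bound_of_hasLT (kb := kb) hLT hbal hok hok' hHM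
  refine ⟨C, fun P hP hg hg' => ?_⟩
  obtain ⟨B, φ, h⟩ := hP
  choose hB eps w h1 h2 h3 h4 h5 using fun s => h (lev s) (grp s) (hg s) (hok s)
  choose hB' eps' w' h1' h2' h3' h4' h5' using fun s => h (lev' s) (grp' s) (hg' s) (hok' s)
  have := hC B φ hB hB' w w' eps eps' h3 h3' h1 h1' h2 h2' h4 h4'
  simp only [h5, h5'] at this
  exact this

end Fermat.Agent.GR.H.Star.Spec
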