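/-
GATE-R / node GR-H-STAR (helper3).

The specialisation half on `X₀(N)`: for every configuration of places `P : Fin e → Place` there is
ONE specialisation `(B, φ)` of the generic `e`-point field (GEN, helper41) sending each generic
Plücker tuple of a good group `G` to `eps * (rational tuple)` with `eps ^ 2` rational and height
`Hpl N L (∑_{p ∈ G} P p)` — the hypothesis `Spec.SpecAt` of `Spec.bound_spec`.

Input: the concrete form `AlphaBar N c` of (alpha)+(alpha')+(gamma) (helper63 PL-EV), as a binder.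
-/
import Mathlib
import Fermat.Agent.GR.H.Gen.Place
import Fermat.Agent.GR.H.Gen.ValOf
import Fermat.Agent.GR.H.PL.Ev
import Fermat.Agent.GR.H.PL.Coord
import Fermat.Agent.GR.H.Star.Spec

set_option autoImplicit false

noncomputable section

open AlgebraicCurve ModularCurve

namespace Fermat.Agent.GR.H.Star.SpecBar

open Fermat.Agent.GR.H.PL Fermat.Agent.GR.H.PL.Ev Fermat.Agent.GR.H.Gen
  Fermat.Agent.GR.H.Star.Generic Fermat.Agent.GR.H.Star.Spec

local notation "Qb" => AlgebraicClosure ℚ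

variable (N : ℕ) [NeZero N]

/-- the basis functions of level `L` -/
def bF (L : ℕ) (j : Fin (dV N (L : ℤ))) : FNb N := ((bV N (L : ℤ) j : V (N := N) (L : ℤ)) : FNb N)

/-- the generic evaluation matrices `E L p j = genBar p (b_L j)` -/
def EBar (e : ℕ) (L : ℕ) (p : Fin e) (j : Fin (dV N (L : ℤ))) : KKBar N e :=
  genBar N p (bF N L j)

/-- the divisor `∑_{p ∈ G} P p` -/
def divOn {e : ℕ} (P : Fin e → Place Qb (FNb N)) (G : Finset (Fin e)) : Divisor Qb (FNb N) :=
  ∑ p ∈ G, Finsupp.single (P p) (1 : ℤ)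

/-- the group `G` of the configuration `P` is good: distinct points, off `∞`, rational sum -/
def GoodOn {e : ℕ} (P : Fin e → Place Qb (FNb N)) (G : Finset (Fin e)) : Prop :=
  Set.InjOn P G ∧ (∀ p ∈ G, P p ≠ oo N) ∧ IsRatDiv (divOn N P G)

/-- **(alpha)+(alpha')+(gamma), concrete form** (contract for PL-EV). -/
def AlphaBar (c : ℕ) : Prop :=
  ∀ (m d : ℕ) (P : Fin d → Place Qb (FNb N)), Function.Injective P → (∀ i, P i ≠ oo N) →
    IsRatDiv (sumDiv P) → d + c ≤ m →
    ∃ (ε : Qb) (ξ : (Fin d → Fin (dV N (m : ℤ))) → ℚ), ε ≠ 0 ∧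
      ε ^ 2 ∈ Set.range (algebraMap ℚ Qb) ∧ ξ ≠ 0 ∧
      (∀ J : Fin d → Fin (dV N (m : ℤ)),
        Matrix.det (Matrix.of fun p q : Fin d => evalAt (P p) (bF N m (J q)))
          = ε * algebraMap ℚ Qb (ξ J)) ∧
      Height.logHeight ξ = Hpl N (m : ℤ) (sumDiv P)

variable {N}

theorem bF_mem_valuationSubring (L : ℕ) (j : Fin (dV N (L : ℤ))) {v : Place Qb (FNb N)}
    (hv : v ≠ oo N) : bF N L j ∈ v.toValuationSubring := by
  have h : bF N L j ∈ V (N := N) (L : ℤ) := (bV N (L : ℤ) j).2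
  have h2 : bF N L j ∈ riemannRochSpace (twist (N := N) (L : ℤ) 0) := (mem_I.mp h).2
  refine mem_valuationSubring_of_mem h2 ?_
  classical
  unfold PL.twist
  rw [Finsupp.sub_apply, Finsupp.single_apply, if_neg (Ne.symm hv)]
  simp

variable (N) in
/-- **GEN specialisation at a configuration of places**, in `evalAt` vocabulary, over `ℚ`. -/
theorem exists_spec {e : ℕ} (P : Fin e → Place Qb (FNb N)) :
    ∃ (B : Subalgebra ℚ (KKBar N e)) (φ : B →ₐ[ℚ] Qb), ∀ (i : Fin e) (f : FNb N),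
      f ∈ (P i).toValuationSubring →
      ∃ h : genBar N i f ∈ B, φ ⟨genBar N i f, h⟩ = evalAt (P i) f := by
  obtain ⟨B₀, Φ₀, h⟩ := exists_specialisation Qb (FNb N)
    (fun i => ratSub (P i).toValuationSubring (P i).algebraMap_mem')
    (fun i => ratVal (P i).toValuationSubring (P i).algebraMap_mem')
  refine ⟨B₀.restrictScalars ℚ, Φ₀.restrictScalars ℚ, ?_⟩
  intro i f hf
  have hdeg : (P i).deg = 1 := Fermat.Agent.RR.ModularBar.deg_eq_one N (P i)
  have hv : HasValue (P i).toValuationSubring f (evalAt (P i) f) :=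
    (hasValue_iff_valueAt (P i) f _).mpr (valueAt_evalAt hdeg hf)
  obtain ⟨h1, h2⟩ := h i ⟨f, _, hv⟩
  refine ⟨h1, ?_⟩
  have := ratVal_eq (P i).toValuationSubring (P i).algebraMap_mem' hv
  rw [← this, ← h2]
  rfl

/-- the generic Plücker coordinates lie in `B` and specialise to the evaluated minors -/
theorem plucker_mem_and_map {e : ℕ} (P : Fin e → Place Qb (FNb N))
    (B : Subalgebra ℚ (KKBar N e)) (φ : B →ₐ[ℚ] Qb)
    (hφ : ∀ (i : Fin e) (f : FNb N), f ∈ (P i).toValuationSubring →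
      ∃ h : genBar N i f ∈ B, φ ⟨genBar N i f, h⟩ = evalAt (P i) f)
    (L : ℕ) (G : Finset (Fin e)) (hG : ∀ p ∈ G, P p ≠ oo N)
    (J : ↥G → Fin (dV N (L : ℤ))) :
    ∃ h : plucker (EBar N e L) G J ∈ B,
      φ ⟨plucker (EBar N e L) G J, h⟩
        = Matrix.det (Matrix.of fun p q : ↥G => evalAt (P p) (bF N L (J q))) := by
  have hreg : ∀ (p : ↥G) (q : ↥G), bF N L (J q) ∈ (P p).toValuationSubring := fun p q =>
    bF_mem_valuationSubring L (J q) (hG p p.2)
  let M' : Matrix ↥G ↥G B := Matrix.of fun p q =>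
    ⟨genBar N p (bF N L (J q)), (hφ p _ (hreg p q)).1⟩
  have h1 : plucker (EBar N e L) G J = B.val (Matrix.det M') := by
    rw [AlgHom.map_det]
    rfl
  have hmem : plucker (EBar N e L) G J ∈ B := by
    rw [h1]; exact (Matrix.det M').2
  refine ⟨hmem, ?_⟩
  have h2 : (⟨plucker (EBar N e L) G J, hmem⟩ : B) = Matrix.det M' := Subtype.ext h1
  rw [h2, AlgHom.map_det]
  congr 1
  ext p q
  exact (hφ p _ (hreg p q)).2

/-- **The specialisation hypothesis of `Spec.bound_spec` on `X₀(N)`.** -/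
theorem specAt_bar {c : ℕ} (hα : AlphaBar N c) {e : ℕ} (P : Fin e → Place Qb (FNb N)) :
    SpecAt (k := ℚ) (kb := Qb) (EBar N e) (fun L G => G.card + c ≤ L) (GoodOn N)
      (fun L P G => Hpl N (L : ℤ) (divOn N P G)) P := by
  classical
  obtain ⟨B, φ, hφ⟩ := exists_spec N P
  refine ⟨B, φ, fun L G hgood hok => ?_⟩
  obtain ⟨hinj, hoo, hrat⟩ := hgood
  let σ : Fin G.card ≃ ↥G := G.equivFin.symm
  let P' : Fin G.card → Place Qb (FNb N) := fun i => P (σ i)
  have hP'inj : Function.Injective P' := by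
    intro i j hij
    have : (σ i : Fin e) = σ j := hinj (σ i).2 (σ j).2 hij
    exact σ.injective (Subtype.ext this)
  have hsum : sumDiv P' = divOn N P G := by
    unfold sumDiv divOn
    rw [← Finset.sum_coe_sort G fun p => Finsupp.single (P p) (1 : ℤ)]
    exact Equiv.sum_comp σ fun p : ↥G => Finsupp.single (P p) (1 : ℤ)
  obtain ⟨ε, ξ, hε, hε2, hξ, hdet, hH⟩ := hα L G.card P' hP'inj (fun i => hoo _ (σ i).2)
    (by rw [hsum]; exact hrat) hok
  let ea : (↥G → Fin (dV N (L : ℤ))) ≃ (Fin G.card → Fin (dV N (L : ℤ))) :=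
    Equiv.arrowCongr σ.symm (Equiv.refl _)
  have hea : ∀ J : ↥G → Fin (dV N (L : ℤ)), ea J = fun i => J (σ i) := fun J => rfl
  refine ⟨fun J => (plucker_mem_and_map P B φ hφ L G hoo J).1, ε, ξ ∘ ea, hε, hε2, ?_, ?_, ?_⟩
  · intro h0
    apply hξ
    funext J
    have := congrFun h0 (ea.symm J)
    simpa using this
  · intro J
    rw [(plucker_mem_and_map P B φ hφ L G hoo J).2, Function.comp_apply, ← hdet (ea J)]
    have : (Matrix.of fun p q : Fin G.card => evalAt (P' p) (bF N L (ea J q)))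
        = (Matrix.of fun p q : ↥G => evalAt (P p) (bF N L (J q))).submatrix σ σ := by
      ext p q
      rfl
    rw [this, Matrix.det_submatrix_equiv_self]
  · rw [Height.logHeight_comp_equiv ea ξ, hH, hsum]

end Fermat.Agent.GR.H.Star.SpecBar
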