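/-
GATE-R / node GR-H-STAR (helper3).

Discharge of the binder (B2) `SpecBar.AlphaBar N c` from helper63's `PL/EvPlug`
(`exists_threshold_alpha` + `gamma`) and the squares trick `Rat.sq_fixed_of_perm`.
-/
import Mathlib
import Fermat.Agent.GR.H.PL.EvPlug
import Fermat.Agent.GR.H.Star.SpecBar

set_option autoImplicit false

noncomputable section

open AlgebraicCurve ModularCurve

namespace Fermat.Agent.GR.H.Star.AlphaBarPlug

open Fermat.Agent.GR.H.PL Fermat.Agent.GR.H.PL.Ev Fermat.Agent.GR.H.PL.EvPlug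
  Fermat.Agent.GR.H.CauchyBinet Fermat.Agent.GR.H.Star.SpecBar

local notation "Qb" => AlgebraicClosure ℚ
local notation "GQ" => (AlgebraicClosure ℚ ≃ₐ[ℚ] AlgebraicClosure ℚ)

variable (N : ℕ) [NeZero N]

/-- **(B2)**: the concrete (alpha)+(alpha')+(gamma) with `ε ^ 2` rational. -/
theorem exists_alphaBar : ∃ c : ℕ, AlphaBar N c := by
  obtain ⟨c, hc⟩ := exists_threshold_alpha N
  refine ⟨c.toNat, fun m d P hinj hoo hD hm => ?_⟩
  have hm' : c + (d : ℤ) ≤ (m : ℤ) := by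
    have := Int.self_le_toNat c
    omega
  obtain ⟨ε, ξ, hε, hξ, ⟨J₀, hJ₀⟩, hH⟩ := hc (m : ℤ) P hinj hoo hD hm'
  have hmin : ∀ J : Fin d → Fin (dV N (m : ℤ)),
      ((evM N (m : ℤ) P).submatrix id J).det = ε * algebraMap ℚ Qb (ξ J) := fun J => hξ J
  refine ⟨ε, ξ, hε, ?_, ?_, ?_, hH.symm⟩
  · -- ε² is rational
    refine mem_range_of_fixed (ε ^ 2) fun σ => ?_
    exact Fermat.Agent.GR.H.Star.Rat.sq_fixed_of_perm (k := ℚ) (evM N (m : ℤ) P)
      (fun σ => gamma (m : ℤ) hinj hoo hD σ) ε ξ hmin ⟨J₀, by rw [hJ₀]; exact one_ne_zero⟩ σ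
  · intro h0
    have := congrFun h0 J₀
    rw [hJ₀] at this
    exact one_ne_zero this
  · intro J
    rw [← hmin J]
    rfl

end Fermat.Agent.GR.H.Star.AlphaBarPlug
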