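import Fermat.Agent.GR.H.Star.LTGroup
import Fermat.Agent.GR.H.Star.Weights

/-!
# GATE-R / H : the (HM) hypothesis at one valuation ring for two balanced monomials

Glue between `LTGroup.isMaxVal_group'` ((LT) for one group of generic points at one level),
`Weights.prod_wt_eq_of_balanced` (pair counting) and `LTAsm.hm_pi`: for two balanced monomials
the tensor tuples of Plücker minors dominate each other at the valuation subring `O`.
-/

set_option autoImplicit false

namespace Fermat.Agent.GR.H.Star.LTBalanced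

open Fermat.Agent.GR.H.Star.LTAsm Fermat.Agent.GR.H.Star.LTGroup
  Fermat.Agent.GR.H.Star.Weights Fermat.Agent.GR.H.LT.Newton

variable {K : Type*} [Field K]
variable {T : Type*} [DecidableEq T] [LinearOrder T]
variable {Q : Type*} [DecidableEq Q]

/-- the same-centre difference of nodes, or `1` -/
noncomputable def dCen (cen : T → Q) (t : T → K) (c p : T) : K :=
  if cen c = cen p then t p - t c else 1

omit [DecidableEq T] in
/-- The weight of the group `↥G` (rows = the subtype, with induced centres, nodes and scaling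
`a p ^ L`) is helper3's `wt a (dCen cen t) L G`. -/
theorem weight_eq_wt (cen : T → Q) (t a : T → K) (L : ℕ) (G : Finset T) :
    weight (fun p : ↥G => cen p.1) (fun p : ↥G => t p.1) (fun p : ↥G => a p.1 ^ L)
      = wt a (dCen cen t) L G := by
  classical
  unfold weight wt
  congr 1
  · rw [Finset.prod_pow, Finset.prod_coe_sort G fun p => a p]
  · -- pairs
    have himg : (blockPairs fun p : ↥G => cen p.1).map
        ⟨fun x : ↥G × ↥G => ((x.1 : T), (x.2 : T)), by
          intro x y h
          simp only [Prod.mk.injEq] at h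
          exact Prod.ext (Subtype.ext h.1) (Subtype.ext h.2)⟩
        = (pairs G).filter fun pp => cen pp.1 = cen pp.2 := by
      ext pp
      simp only [Finset.mem_map, Function.Embedding.coeFn_mk, Finset.mem_filter, mem_pairs,
        mem_blockPairs, Prod.exists]
      constructor
      · rintro ⟨x, y, ⟨hc, hlt⟩, rfl⟩
        exact ⟨⟨x.2, y.2, hlt⟩, hc⟩
      · rintro ⟨⟨h1, h2, hlt⟩, hc⟩
        exact ⟨⟨pp.1, h1⟩, ⟨pp.2, h2⟩, ⟨hc, hlt⟩, rfl⟩
    have h1 : ∏ x ∈ blockPairs fun p : ↥G => cen p.1, (t x.2.1 - t x.1.1)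
        = ∏ pp ∈ (pairs G).filter fun pp => cen pp.1 = cen pp.2, (t pp.2 - t pp.1) := by
      rw [← himg, Finset.prod_map]
      rfl
    rw [h1, Finset.prod_filter]
    refine Finset.prod_congr rfl fun pp _ => ?_
    unfold dCen
    rfl

variable (O : ValuationSubring K)

/-- The (LT)-input for one factor: the evaluation matrix `E` of the group `G` at level `L` is the
row-scaling by `a p ^ L` of a matrix `V` whose block divided differences are `O`-integral with
residues `tau` in the constants, one `tau`-minor being nonzero. -/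
def GroupData {k : Type*} [Field k] [Algebra k K] (cen : T → Q) (t a : T → K) (L : ℕ)
    (G : Finset T) {κ : Type*} (E : ↥G → κ → K) : Prop :=
  ∃ V : ↥G → κ → K, (∀ p j, E p j = a p.1 ^ L * V p j) ∧
    (∀ p j, DD (fun p : ↥G => cen p.1) (fun p : ↥G => t p.1) V p j ∈ O) ∧
    ∃ tau : ↥G → κ → k,
      (∀ p j, DD (fun p : ↥G => cen p.1) (fun p : ↥G => t p.1) V p j - algebraMap k K (tau p j)
        ∈ O.nonunits) ∧
      ∃ c0 : ↥G → κ, Matrix.det (fun p q => tau p (c0 q)) ≠ 0

/-- (LT) for one factor, in helper3's weight. -/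
theorem isMaxVal_of_groupData {k : Type*} [Field k] [Algebra k K]
    (hk : ∀ x : k, algebraMap k K x ∈ O) (cen : T → Q) (t a : T → K)
    (hinj : ∀ p p', cen p = cen p' → t p = t p' → p = p') (L : ℕ) (G : Finset T) {κ : Type*}
    (E : ↥G → κ → K) (h : GroupData (k := k) O cen t a L G E) :
    IsMaxVal O (fun c : ↥G → κ => Matrix.det (fun p q => E p (c q)))
      (O.valuation (wt a (dCen cen t) L G)) := by
  obtain ⟨V, hE, hint, tau, hres, c0, hosc⟩ := h
  rw [← weight_eq_wt]
  exact isMaxVal_group' O hk (fun p : ↥G => cen p.1) (fun p : ↥G => t p.1)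
    (fun p p' hc ht => Subtype.ext (hinj p.1 p'.1 hc ht)) (fun p : ↥G => a p.1 ^ L) V E hE hint
    tau hres c0 hosc

variable [Fintype T]

/-- **The (HM) hypothesis at `O` for two balanced monomials.** -/
theorem hm_of_balanced {k : Type*} [Field k] [Algebra k K]
    (hk : ∀ x : k, algebraMap k K x ∈ O) (cen : T → Q) (t a : T → K)
    (hinj : ∀ p p', cen p = cen p' → t p = t p' → p = p')
    {S S' : Type*} [Fintype S] [Fintype S'] {lev : S → ℕ} {grp : S → Finset T}
    {lev' : S' → ℕ} {grp' : S' → Finset T} (hbal : Balanced lev grp lev' grp')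
    {κ : S → Type*} {κ' : S' → Type*}
    (E : ∀ s, ↥(grp s) → κ s → K) (E' : ∀ s, ↥(grp' s) → κ' s → K)
    (hE : ∀ s, GroupData (k := k) O cen t a (lev s) (grp s) (E s))
    (hE' : ∀ s, GroupData (k := k) O cen t a (lev' s) (grp' s) (E' s)) :
    (∀ j : ∀ s, ↥(grp' s) → κ' s, ∃ i : ∀ s, ↥(grp s) → κ s,
        O.valuation (∏ s, Matrix.det (fun p q => E' s p (j s q))) ≤
          O.valuation (∏ s, Matrix.det (fun p q => E s p (i s q)))) ∧
      (∀ i : ∀ s, ↥(grp s) → κ s, ∃ j : ∀ s, ↥(grp' s) → κ' s,
        O.valuation (∏ s, Matrix.det (fun p q => E s p (i s q))) ≤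
          O.valuation (∏ s, Matrix.det (fun p q => E' s p (j s q)))) := by
  have h1 : ∀ s, IsMaxVal O (fun c : ↥(grp s) → κ s => Matrix.det (fun p q => E s p (c q)))
      (O.valuation (wt a (dCen cen t) (lev s) (grp s))) :=
    fun s => isMaxVal_of_groupData O hk cen t a hinj (lev s) (grp s) (E s) (hE s)
  have h2 : ∀ s, IsMaxVal O (fun c : ↥(grp' s) → κ' s => Matrix.det (fun p q => E' s p (c q)))
      (O.valuation (wt a (dCen cen t) (lev' s) (grp' s))) :=
    fun s => isMaxVal_of_groupData O hk cen t a hinj (lev' s) (grp' s) (E' s) (hE' s)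
  have hW : ∏ s, O.valuation (wt a (dCen cen t) (lev s) (grp s))
      = ∏ s, O.valuation (wt a (dCen cen t) (lev' s) (grp' s)) := by
    rw [← map_prod, ← map_prod, prod_wt_eq_of_balanced a (dCen cen t) hbal]
  exact hm_pi (x := fun s (c : ↥(grp s) → κ s) => Matrix.det (fun p q => E s p (c q)))
    (x' := fun s (c : ↥(grp' s) → κ' s) => Matrix.det (fun p q => E' s p (c q))) h1 h2 hW

end Fermat.Agent.GR.H.Star.LTBalanced
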