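/-
GATE-R (S17) / node GR-H-STAR-HASLT (helper49): **the (LT)-input `GroupData` / `HasLT` from
centres + DIAG + PlaceVal, with (OSC) as the only open binder.**

Abstract frame: `F / k` a function field with a generator (`[IsGen k x]`), `k` algebraically
closed of characteristic zero; `KK ⊇ k` a field, `φ p : F →ₐ[k] KK` (`p : T`) generic points;
`O` a valuation subring of `KK` containing `k` such that every point has a CENTRE
`cen p : Place k F` (`φ p g ∈ O ↔ g ∈ O_{cen p}`; GEN (G-c)).  Fix uniformisers `u Q` and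
regularising factors `w Q` (`w Q = 1` off `∞`, a uniformiser at `∞`) at all places.

* `groupData_of_centres` : for a group `G` of points, a family `b : κ → F` with
  `w Q ^ L * b j` regular at every centre, the evaluation matrix `E p j = φ p (b j)` satisfies
  helper90's `LTBalanced.GroupData O cen t a L G E` with nodes `t p = φ p (u (cen p))`, scalings
  `a p = (φ p (w (cen p)))⁻¹`, residues `tau p j =` the `pos p`-th Taylor coefficient of
  `w^L b_j` at `cen p` (helper48's `PlaceVal.taylorCoeff`) — integrality and residues by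
  `DiagPlace.diag`; the nonvanishing `tau`-minor is the hypothesis `hosc` (= LT-OSC, helper50 /
  helper37, consumer shape 4859 (5)).
* `hasLT_of_centres` : the same as helper3's `Generic.HasLT O E ok`.
-/
import Fermat.Agent.GR.H.LT.DiagPlace
import Fermat.Agent.GR.H.LT.NewtonBridge
import Fermat.Agent.GR.H.LT.NewtonPos
import Fermat.Agent.GR.H.PlaceVal
import Fermat.Agent.GR.H.Star.LTBalanced
import Fermat.Agent.GR.H.Star.Generic
import Fermat.Agent.S24.DegOne

set_option autoImplicit false

open AlgebraicCurve Finset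

namespace Fermat.Agent.GR.H.Star.HasLTInst

open Fermat.Agent.S24 Fermat.Agent.GR.H.PlaceVal Fermat.Agent.GR.H.LT.Newton
  Fermat.Agent.GR.H.LT.NewtonPos Fermat.Agent.GR.H.Star.LTBalanced

section Frame

variable {k F : Type*} [Field k] [Field F] [Algebra k F] [IsAlgClosed k] [CharZero k]
variable {KK : Type*} [Field KK] [Algebra k KK]
variable {T : Type*} [DecidableEq T] [LinearOrder T]

open scoped Classical in
/-- **`GroupData` from centres.** -/
theorem groupData_of_centres (x : F) [IsGen k x] (φ : T → F →ₐ[k] KK)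
    (O : ValuationSubring KK) (hO : ∀ c : k, algebraMap k KK c ∈ O)
    (cen : T → Place k F) (hcen : ∀ p g, φ p g ∈ O ↔ g ∈ (cen p).toValuationSubring)
    (u : Place k F → F) (hu : ∀ Q : Place k F, Q.ord (u Q) = 1)
    (hφinj : ∀ p p', cen p = cen p' → φ p (u (cen p)) = φ p' (u (cen p')) → p = p')
    (w : Place k F → F) (hw0 : ∀ p, φ p (w (cen p)) ≠ 0)
    (L : ℕ) (G : Finset T) {κ : Type*} (b : κ → F)
    (hreg : ∀ (p : T) (j : κ), p ∈ G → w (cen p) ^ L * b j ∈ (cen p).toValuationSubring)
    (hosc : ∃ c0 : ↥G → κ, Matrix.det (fun (p : ↥G) (q : ↥G) =>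
      taylorCoeff (cen p.1) (u (cen p.1)) (pos (fun p : ↥G => cen p.1) p)
        (w (cen p.1) ^ L * b (c0 q))) ≠ 0) :
    GroupData (k := k) O cen (fun p => φ p (u (cen p))) (fun p => (φ p (w (cen p)))⁻¹) L G
      (fun (p : ↥G) (j : κ) => φ p.1 (b j)) := by
  classical
  set cen' : ↥G → Place k F := fun p => cen p.1 with hcen'
  set t' : ↥G → KK := fun p => φ p.1 (u (cen p.1)) with ht'
  set V : ↥G → κ → KK := fun p j => φ p.1 (w (cen p.1) ^ L * b j) with hV
  -- the key: DIAG at each (p, j)
  have key : ∀ (p : ↥G) (j : κ),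
      DD cen' t' V p j ∈ O ∧
      DD cen' t' V p j - algebraMap k KK
        (taylorCoeff (cen p.1) (u (cen p.1)) (pos cen' p) (w (cen p.1) ^ L * b j)) ∈ O.nonunits := by
    intro p j
    have hP : (cen p.1).deg = 1 := PlaceB.deg_eq_one (cen p.1) x
    have hs : w (cen p.1) ^ L * b j ∈ (cen p.1).toValuationSubring := hreg p.1 j p.2
    have hS : (blockLE cen' p).Nonempty := blockLE_nonempty cen' p
    have hcard : (blockLE cen' p).card = pos cen' p + 1 := card_blockLE cen' p
    have hc : ∀ a ∈ blockLE cen' p, ∀ g : F,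
        φ a.1 g ∈ O ↔ g ∈ (cen p.1).toValuationSubring := by
      intro a ha g
      have : cen a.1 = cen p.1 := (mem_blockLE.mp ha).1
      rw [← this]
      exact hcen a.1 g
    have hinj : Set.InjOn (fun a : ↥G => φ a.1 (u (cen p.1))) (blockLE cen' p) := by
      intro a ha a' ha' haa
      have h1 : cen a.1 = cen p.1 := (mem_blockLE.mp ha).1
      have h2 : cen a'.1 = cen p.1 := (mem_blockLE.mp ha').1
      have h3 : φ a.1 (u (cen a.1)) = φ a'.1 (u (cen a'.1)) := by
        rw [h1, h2]; exact haa
      exact Subtype.ext (hφinj a.1 a'.1 (h1.trans h2.symm) h3)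
    have hdiag := Fermat.Agent.GR.H.LT.DiagPlace.diag x (cen p.1) (hu (cen p.1)) O hO (fun a : ↥G => φ a.1)
      (blockLE cen' p) hS hc hinj
      (s := w (cen p.1) ^ L * b j)
      (fun n => taylorCoeff (cen p.1) (u (cen p.1)) n (w (cen p.1) ^ L * b j))
      (r := taylorRem (cen p.1) (u (cen p.1)) (blockLE cen' p).card (w (cen p.1) ^ L * b j))
      (taylorRem_mem hP (hu (cen p.1)) hs _)
      (taylor_expansion (hu (cen p.1)) _ _)
    -- rewrite the divided difference
    have hDD : DD cen' t' V p j = Fermat.Agent.GR.H.Newton.dd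
        (fun a : ↥G => φ a.1 (u (cen p.1)))
        (fun a : ↥G => φ a.1 (w (cen p.1) ^ L * b j)) (blockLE cen' p) := by
      show ddS t' (fun i => V i j) (blockLE cen' p) = _
      rw [← Fermat.Agent.GR.H.LT.NewtonBridge.ddS_eq_dd]
      refine ddS_congr (fun i hi => ?_) (fun i hi => ?_)
      · have : cen i.1 = cen p.1 := (mem_blockLE.mp hi).1
        simp only [ht', this]
      · have : cen i.1 = cen p.1 := (mem_blockLE.mp hi).1
        simp only [hV, this]
    rw [hDD]
    refine ⟨hdiag.1, ?_⟩
    have := hdiag.2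
    rw [hcard, Nat.add_sub_cancel] at this
    exact this
  refine ⟨V, fun p j => ?_, fun p j => (key p j).1, ?_⟩
  · simp only [hV, map_mul, map_pow, inv_pow]
    rw [← mul_assoc, inv_mul_cancel₀ (pow_ne_zero L (hw0 p.1)), one_mul]
  · obtain ⟨c0, hc0⟩ := hosc
    exact ⟨fun p j => taylorCoeff (cen p.1) (u (cen p.1)) (pos cen' p) (w (cen p.1) ^ L * b j),
      fun p j => (key p j).2, c0, hc0⟩

end Frame

section HasLT

variable {k F : Type*} [Field k] [Field F] [Algebra k F] [IsAlgClosed k] [CharZero k]
variable {KK : Type*} [Field KK] [Algebra k KK]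
variable {T : Type} [DecidableEq T] [LinearOrder T]

open scoped Classical in
/-- the regularising factor: a uniformiser at `inf`, `1` elsewhere -/
noncomputable def regFactor (inf : Place k F) (u : Place k F → F) (Q : Place k F) : F :=
  if Q = inf then u inf else 1

open scoped Classical in
/-- **`HasLT` from centres** (helper3's `Generic.HasLT`): generic points `φ p` with centres at
`O`, level families `b L : κ L → F` regular off `inf` with poles of order `≤ L` at `inf`; the
only open input is (OSC). -/
theorem hasLT_of_centres (x : F) [IsGen k x] (φ : T → F →ₐ[k] KK)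
    (hgen : ∀ (p p' : T) (f : F), φ p f = φ p' f → p = p' ∨ f ∈ Set.range (algebraMap k F))
    (O : ValuationSubring KK) (hO : ∀ c : k, algebraMap k KK c ∈ O)
    (hcen : ∀ p, ∃ P : Place k F, ∀ g, φ p g ∈ O ↔ g ∈ P.toValuationSubring)
    (u : Place k F → F) (hu : ∀ Q : Place k F, Q.ord (u Q) = 1)
    (inf : Place k F) {κ : ℕ → Type} (b : ∀ L, κ L → F)
    (hreg : ∀ (L : ℕ) (j : κ L) (Q : Place k F),
      regFactor inf u Q ^ L * b L j ∈ Q.toValuationSubring)
    (ok : ℕ → Finset T → Prop)
    (hosc : ∀ (cen : T → Place k F) (L : ℕ) (G : Finset T), ok L G →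
      ∃ c0 : ↥G → κ L, Matrix.det (fun (p : ↥G) (q : ↥G) =>
        taylorCoeff (cen p.1) (u (cen p.1)) (pos (fun p : ↥G => cen p.1) p)
          (regFactor inf u (cen p.1) ^ L * b L (c0 q))) ≠ 0) :
    Generic.HasLT O (fun L p j => φ p (b L j)) ok := by
  classical
  choose cen hcen' using hcen
  -- uniformisers are not constants
  have hnc : ∀ Q : Place k F, u Q ∉ Set.range (algebraMap k F) := by
    rintro Q ⟨c, hc⟩
    have h1 := hu Q
    rw [← hc] at h1
    rcases eq_or_ne c 0 with rfl | hc0
    · simp at h1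
    · rw [PlaceB.ord_algebraMap Q hc0] at h1
      exact zero_ne_one h1
  have hφinj : ∀ p p', cen p = cen p' → φ p (u (cen p)) = φ p' (u (cen p')) → p = p' := by
    intro p p' hc ht
    rw [← hc] at ht
    exact (hgen p p' _ ht).resolve_right (hnc _)
  have hw0 : ∀ p, φ p (regFactor inf u (cen p)) ≠ 0 := by
    intro p
    have hne : regFactor inf u (cen p) ≠ 0 := by
      unfold regFactor
      split_ifs
      · intro h0
        have := hu inf
        rw [h0] at this
        simp at this
      · exact one_ne_zero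
    exact (map_ne_zero (φ p)).mpr hne
  refine ⟨fun p => (φ p (regFactor inf u (cen p)))⁻¹,
    dCen cen (fun p => φ p (u (cen p))), fun L G hok => ?_⟩
  have hGD := groupData_of_centres x φ O hO cen hcen' u hu hφinj (regFactor inf u) hw0 L G (b L)
    (fun p j _ => hreg L j (cen p)) (hosc cen L G hok)
  exact isMaxVal_of_groupData O hO cen (fun p => φ p (u (cen p)))
    (fun p => (φ p (regFactor inf u (cen p)))⁻¹) hφinj L G _ hGD

end HasLT

end Fermat.Agent.GR.H.Star.HasLTInst
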