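import Mathlib

/-!
# GATE-R / H : valuation rings with algebraic residue field contain the algebraic closure

Let `k₀ ⊆ k` be fields with `k` algebraically closed and algebraic over `k₀` (`k₀ = ℚ`,
`k = AlgebraicClosure ℚ`), `KK ⊇ k` a field and `O` a valuation subring of `KK` containing `k₀`
whose residue field is algebraic over `k₀` in the elementary sense
`∀ a ∈ O, ∃ p : k₀[X], p.Monic ∧ aeval a p ∈ O.nonunits`.
Then `k ⊆ O` and every element of `O` is congruent to an element of `k` modulo the nonunits.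
-/

set_option autoImplicit false

namespace Fermat.Agent.GR.H.Star.ResQb

open Polynomial

variable {k₀ k KK : Type*} [Field k₀] [Field k] [Field KK] [Algebra k₀ k] [Algebra k₀ KK]
  [Algebra k KK] [IsScalarTower k₀ k KK]

/-- A valuation subring containing `k₀` contains every element of `KK` integral over `k₀`
(the direct valuative argument). -/
theorem mem_of_monic_aeval_eq_zero (O : ValuationSubring KK)
    (h₀ : ∀ c : k₀, algebraMap k₀ KK c ∈ O) {x : KK} {p : k₀[X]} (hp : p.Monic)
    (hx : aeval x p = 0) : x ∈ O := by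
  by_contra hxO
  have hv : 1 < O.valuation x := by
    rw [← not_le]; exact fun h => hxO ((O.valuation_le_one_iff x).1 h)
  have hx0 : x ≠ 0 := fun h => hxO (h ▸ O.zero_mem)
  -- `x ^ n = - ∑ i < n, a i * x ^ i`
  set n := p.natDegree with hn
  have hsum : x ^ n = - ∑ i ∈ Finset.range n, algebraMap k₀ KK (p.coeff i) * x ^ i := by
    have h1 : aeval x p = ∑ i ∈ Finset.range (n + 1), algebraMap k₀ KK (p.coeff i) * x ^ i := by
      rw [aeval_eq_sum_range]; simp only [Algebra.smul_def]; rfl
    rw [h1, Finset.sum_range_succ, hp.coeff_natDegree, map_one, one_mul] at hx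
    exact eq_neg_of_add_eq_zero_right hx
  have hle : O.valuation (x ^ n) ≤ O.valuation x ^ (n - 1) ∨ n = 0 := by
    rcases Nat.eq_zero_or_pos n with h0 | hpos
    · exact Or.inr h0
    left
    rw [hsum, Valuation.map_neg]
    refine Valuation.map_sum_le _ fun i hi => ?_
    rw [map_mul, map_pow]
    have hc : O.valuation (algebraMap k₀ KK (p.coeff i)) ≤ 1 :=
      (O.valuation_le_one_iff _).2 (h₀ _)
    have hi' : i ≤ n - 1 := by
      have := Finset.mem_range.1 hi; omega
    calc O.valuation (algebraMap k₀ KK (p.coeff i)) * O.valuation x ^ i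
        ≤ 1 * O.valuation x ^ i := mul_le_mul' hc le_rfl
      _ = O.valuation x ^ i := one_mul _
      _ ≤ O.valuation x ^ (n - 1) := pow_le_pow_right₀ hv.le hi'
  rcases hle with hle | h0
  · rw [map_pow] at hle
    have hpos : 0 < n := by
      by_contra h
      have h0 : n = 0 := by omega
      rw [h0, pow_zero] at hsum
      simp at hsum
    have hlt : O.valuation x ^ (n - 1) < O.valuation x ^ n :=
      pow_lt_pow_right₀ hv (by omega)
    exact absurd hle (not_le.2 hlt)
  · rw [h0, pow_zero] at hsum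
    simp at hsum

/-- `k ⊆ O` as soon as `k₀ ⊆ O` and `k/k₀` is algebraic. -/
theorem algebraMap_mem [Algebra.IsAlgebraic k₀ k] (O : ValuationSubring KK)
    (h₀ : ∀ c : k₀, algebraMap k₀ KK c ∈ O) (c : k) : algebraMap k KK c ∈ O := by
  have hint : IsIntegral k₀ c := (Algebra.IsAlgebraic.isAlgebraic c).isIntegral
  obtain ⟨p, hp, hpc⟩ := hint
  refine mem_of_monic_aeval_eq_zero O h₀ hp ?_
  have : aeval (algebraMap k KK c) p = algebraMap k KK (aeval c p) := by
    rw [aeval_algebraMap_apply]
  rw [this]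
  have hpc' : aeval c p = 0 := by
    rw [aeval_def]; exact hpc
  rw [hpc', map_zero]

/-- Elements of `O` are congruent to constants of `k` modulo the nonunits, when the residue field
is algebraic over `k₀` and `k` is algebraically closed. -/
theorem exists_sub_mem_nonunits [Algebra.IsAlgebraic k₀ k] [IsAlgClosed k]
    (O : ValuationSubring KK)
    (hres : ∀ a ∈ O, ∃ p : k₀[X], p.Monic ∧ aeval a p ∈ O.nonunits) {a : KK} (ha : a ∈ O) :
    ∃ c : k, a - algebraMap k KK c ∈ O.nonunits := by
  classical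
  obtain ⟨p, hp, hpa⟩ := hres a ha
  set p' : k[X] := p.map (algebraMap k₀ k) with hp'
  have hmon : p'.Monic := hp.map _
  have hspl : p'.Splits := IsAlgClosed.splits p'
  have hprod : p' = (p'.roots.map (X - C ·)).prod := hspl.eq_prod_roots_of_monic hmon
  have hev : aeval a p = (p'.roots.map fun c => a - algebraMap k KK c).prod := by
    have h1 : aeval a p = aeval a p' := by
      rw [hp', aeval_map_algebraMap]
    rw [h1]
    conv_lhs => rw [hprod]
    rw [map_multiset_prod, Multiset.map_map]
    refine congrArg _ (Multiset.map_congr rfl fun c _ => ?_)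
    simp
  by_contra hcon
  have hcon' : ∀ c : k, 1 ≤ O.valuation (a - algebraMap k KK c) := by
    intro c
    by_contra h
    exact hcon ⟨c, not_le.1 h⟩
  have hge : 1 ≤ O.valuation (aeval a p) := by
    rw [hev, map_multiset_prod, Multiset.map_map]
    refine Multiset.one_le_prod_of_one_le ?_
    intro x hx
    obtain ⟨c, _, rfl⟩ := Multiset.mem_map.1 hx
    exact hcon' c
  exact absurd hpa (not_lt.2 hge)

/-- The packaged statement (shape asked for in the GR-H-STAR consumer list). -/
theorem algClosed_subset_and_residues [Algebra.IsAlgebraic k₀ k] [IsAlgClosed k]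
    (O : ValuationSubring KK) (h₀ : ∀ c : k₀, algebraMap k₀ KK c ∈ O)
    (hres : ∀ a ∈ O, ∃ p : k₀[X], p.Monic ∧ aeval a p ∈ O.nonunits) :
    (∀ c : k, algebraMap k KK c ∈ O) ∧
      ∀ a ∈ O, ∃ c : k, a - algebraMap k KK c ∈ O.nonunits :=
  ⟨algebraMap_mem O h₀, fun _ ha => exists_sub_mem_nonunits O hres ha⟩

/-- Same with the single class `IsAlgClosure k₀ k` (e.g. `k₀ = ℚ`, `k = AlgebraicClosure ℚ`). -/
theorem algClosure_subset_and_residues [IsAlgClosure k₀ k]
    (O : ValuationSubring KK) (h₀ : ∀ c : k₀, algebraMap k₀ KK c ∈ O)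
    (hres : ∀ a ∈ O, ∃ p : k₀[X], p.Monic ∧ aeval a p ∈ O.nonunits) :
    (∀ c : k, algebraMap k KK c ∈ O) ∧
      ∀ a ∈ O, ∃ c : k, a - algebraMap k KK c ∈ O.nonunits := by
  have : Algebra.IsAlgebraic k₀ k := IsAlgClosure.isAlgebraic
  have : IsAlgClosed k := IsAlgClosure.isAlgClosed k₀
  exact algClosed_subset_and_residues O h₀ hres

/-- The instance used in GATE-R: `k₀ = ℚ`, `k = AlgebraicClosure ℚ`. -/
theorem rat_subset_and_residues {KK : Type*} [Field KK] [Algebra ℚ KK]
    [Algebra (AlgebraicClosure ℚ) KK] [IsScalarTower ℚ (AlgebraicClosure ℚ) KK]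
    (O : ValuationSubring KK) (h₀ : ∀ c : ℚ, algebraMap ℚ KK c ∈ O)
    (hres : ∀ a ∈ O, ∃ p : ℚ[X], p.Monic ∧ aeval a p ∈ O.nonunits) :
    (∀ c : AlgebraicClosure ℚ, algebraMap (AlgebraicClosure ℚ) KK c ∈ O) ∧
      ∀ a ∈ O, ∃ c : AlgebraicClosure ℚ,
        a - algebraMap (AlgebraicClosure ℚ) KK c ∈ O.nonunits := by
  have : Algebra.IsAlgebraic ℚ (AlgebraicClosure ℚ) := AlgebraicClosure.isAlgebraic ℚ
  exact algClosed_subset_and_residues O h₀ hres

end Fermat.Agent.GR.H.Star.ResQb
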