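/-
GATE-R (S17) / node GR-H-STAR-ATO (helper90; helper3 board 4973): **concrete (LT) at ONE valuation
ring of the generic `e`-point field of `X₀(N)` over `ℚ̄`**, in the exact hypothesis shape of
helper3's `Generic.bound_of_hasLT` (`hLT : ∀ O, (∀ c : ℚ, algebraMap ℚ KK c ∈ O) → AlgRes ℚ O →
HasLT O E ok`).

* `rat_to_bar`      : `ℚ ⊆ O` and algebraic residue field ⟹ `ℚ̄ ⊆ O` and every element of `O` has a
                      residue in `ℚ̄` (`ResQb`), for `KK := KKBar N e`;
* `exists_centres`  : hence the `e` generic points have centres (GEN (G-c));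
* `hasLT_genBar`    : `Generic.HasLT O (fun L p j => genBar N p (b L j)) ok`
                      (helper49's `HasLTInst.hasLT_of_centres` on helper41's `genBar`); the only open
                      binder is (OSC);
* `hasLT_genBar_all`: the `hLT` binder of `Generic.bound_of_hasLT`, verbatim.
-/
import Mathlib
import Fermat.Agent.GR.H.Star.HasLTInst
import Fermat.Agent.GR.H.Star.ResQb
import Fermat.Agent.GR.H.Gen.Place

set_option autoImplicit false

open AlgebraicCurve ModularCurve

namespace Fermat.Agent.GR.H.Star.AtO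

open Fermat.Agent.GR.H.Gen Fermat.Agent.GR.H.PlaceVal Fermat.Agent.GR.H.LT.NewtonPos
  Fermat.Agent.GR.H.Star.HasLTInst

variable (N : ℕ) [NeZero N]

omit [NeZero N] in
/-- `ℚ ⊆ O` + algebraic residue field ⟹ `ℚ̄ ⊆ O` + residues in `ℚ̄`. -/
theorem rat_to_bar {e : ℕ} (O : ValuationSubring (KKBar N e))
    (hQ : ∀ c : ℚ, algebraMap ℚ (KKBar N e) c ∈ O) (hres : Generic.AlgRes ℚ O) :
    (∀ c : AlgebraicClosure ℚ, algebraMap (AlgebraicClosure ℚ) (KKBar N e) c ∈ O) ∧
      ∀ a ∈ O, ∃ c : AlgebraicClosure ℚ,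
        a - algebraMap (AlgebraicClosure ℚ) (KKBar N e) c ∈ O.nonunits :=
  Fermat.Agent.GR.H.Star.ResQb.rat_subset_and_residues O hQ hres

/-- the generic points have centres at `O`. -/
theorem exists_centres {e : ℕ} (O : ValuationSubring (KKBar N e))
    (hQ : ∀ c : ℚ, algebraMap ℚ (KKBar N e) c ∈ O) (hres : Generic.AlgRes ℚ O) (p : Fin e) :
    ∃ P : Place (AlgebraicClosure ℚ) (modularFunctionFieldBar N),
      ∀ g, genBar N p g ∈ O ↔ g ∈ P.toValuationSubring := by
  obtain ⟨hk, hrat⟩ := rat_to_bar N O hQ hres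
  exact (exists_place_genBar N O hk hrat p).imp fun _ h => h.1

open scoped Classical in
/-- **(LT) at one `O`** for the generic `e`-point field of `X₀(N)` over `ℚ̄`. -/
theorem hasLT_genBar {e : ℕ} (O : ValuationSubring (KKBar N e))
    (hQ : ∀ c : ℚ, algebraMap ℚ (KKBar N e) c ∈ O) (hres : Generic.AlgRes ℚ O)
    (u : Place (AlgebraicClosure ℚ) (modularFunctionFieldBar N) → modularFunctionFieldBar N)
    (hu : ∀ Q : Place (AlgebraicClosure ℚ) (modularFunctionFieldBar N), Q.ord (u Q) = 1)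
    (inf : Place (AlgebraicClosure ℚ) (modularFunctionFieldBar N)) {κ : ℕ → Type}
    (b : ∀ L, κ L → modularFunctionFieldBar N)
    (hreg : ∀ (L : ℕ) (j : κ L) (Q : Place (AlgebraicClosure ℚ) (modularFunctionFieldBar N)),
      regFactor inf u Q ^ L * b L j ∈ Q.toValuationSubring)
    (ok : ℕ → Finset (Fin e) → Prop)
    (hosc : ∀ (cen : Fin e → Place (AlgebraicClosure ℚ) (modularFunctionFieldBar N)) (L : ℕ)
      (G : Finset (Fin e)), ok L G →
      ∃ c0 : ↥G → κ L, Matrix.det (fun (p : ↥G) (q : ↥G) =>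
        taylorCoeff (cen p.1) (u (cen p.1)) (pos (fun p : ↥G => cen p.1) p)
          (regFactor inf u (cen p.1) ^ L * b L (c0 q))) ≠ 0) :
    Generic.HasLT O (fun L (p : Fin e) j => genBar N p (b L j)) ok := by
  have := Fermat.Agent.RR.ModularBar.isGen_jF N
  obtain ⟨hk, _⟩ := rat_to_bar N O hQ hres
  exact hasLT_of_centres (Fermat.Agent.S24.jF N) (fun p : Fin e => genBar N p)
    (fun _ _ _ h => genBar_eq_genBar N h) O hk (exists_centres N O hQ hres) u hu inf b hreg ok hosc

open scoped Classical in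
/-- the `hLT` binder of `Generic.bound_of_hasLT`, verbatim. -/
theorem hasLT_genBar_all {e : ℕ}
    (u : Place (AlgebraicClosure ℚ) (modularFunctionFieldBar N) → modularFunctionFieldBar N)
    (hu : ∀ Q : Place (AlgebraicClosure ℚ) (modularFunctionFieldBar N), Q.ord (u Q) = 1)
    (inf : Place (AlgebraicClosure ℚ) (modularFunctionFieldBar N)) {κ : ℕ → Type}
    (b : ∀ L, κ L → modularFunctionFieldBar N)
    (hreg : ∀ (L : ℕ) (j : κ L) (Q : Place (AlgebraicClosure ℚ) (modularFunctionFieldBar N)),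
      regFactor inf u Q ^ L * b L j ∈ Q.toValuationSubring)
    (ok : ℕ → Finset (Fin e) → Prop)
    (hosc : ∀ (cen : Fin e → Place (AlgebraicClosure ℚ) (modularFunctionFieldBar N)) (L : ℕ)
      (G : Finset (Fin e)), ok L G →
      ∃ c0 : ↥G → κ L, Matrix.det (fun (p : ↥G) (q : ↥G) =>
        taylorCoeff (cen p.1) (u (cen p.1)) (pos (fun p : ↥G => cen p.1) p)
          (regFactor inf u (cen p.1) ^ L * b L (c0 q))) ≠ 0) :
    ∀ O : ValuationSubring (KKBar N e), (∀ c : ℚ, algebraMap ℚ (KKBar N e) c ∈ O) →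
      Generic.AlgRes ℚ O → Generic.HasLT O (fun L (p : Fin e) j => genBar N p (b L j)) ok :=
  fun O hQ hres => hasLT_genBar N O hQ hres u hu inf b hreg ok hosc

end Fermat.Agent.GR.H.Star.AtO
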