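/-
GATE-R / node GR-H-STAR (helper3).

Families of pairwise disjoint reduced rational divisors as ONE configuration of points, and the
general bound for balanced monomials of sub-sums (`bound_family`), from
`Spec.bound_spec` + `SpecBar.specAt_bar` + `HMAlg.HM_two_sided_algRes`.

Inputs (binders): `LTBar N c` (concrete (LT) at every valuation ring with algebraic residue field,
helper90 AtO) and `SpecBar.AlphaBar N c` (helper63 PL-EV).
-/
import Mathlib
import Fermat.Agent.GR.H.HMAlg
import Fermat.Agent.GR.H.Star.SpecBar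

set_option autoImplicit false

noncomputable section

open AlgebraicCurve ModularCurve Finset

namespace Fermat.Agent.GR.H.Star.Family

open Fermat.Agent.GR.H.PL Fermat.Agent.GR.H.PL.Ev Fermat.Agent.GR.H.Gen
  Fermat.Agent.GR.H.Star.Generic Fermat.Agent.GR.H.Star.Spec Fermat.Agent.GR.H.Star.SpecBar
  Fermat.Agent.GR.H.Star.Weights

local notation "Qb" => AlgebraicClosure ℚ

/-! ### blocks of `Fin (∑ a, d a)` -/

section Blocks

variable {r : ℕ} (d : Fin r → ℕ)

/-- the block of the point `p` -/
def blk (p : Fin (∑ a, d a)) : Fin r := (finSigmaFinEquiv.symm p).1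

/-- the group of the points whose block lies in `A` -/
def grpOf (A : Finset (Fin r)) : Finset (Fin (∑ a, d a)) := Finset.univ.filter fun p => blk d p ∈ A

theorem mem_grpOf {A : Finset (Fin r)} {p : Fin (∑ a, d a)} : p ∈ grpOf d A ↔ blk d p ∈ A := by
  simp [grpOf]

/-- sums over a group -/
theorem sum_grpOf {M : Type*} [AddCommMonoid M] (A : Finset (Fin r))
    (g : (Σ a : Fin r, Fin (d a)) → M) :
    ∑ p ∈ grpOf d A, g (finSigmaFinEquiv.symm p) = ∑ a ∈ A, ∑ i : Fin (d a), g ⟨a, i⟩ := by
  unfold grpOf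
  rw [Finset.sum_filter]
  have h1 : ∑ p : Fin (∑ a, d a), (if blk d p ∈ A then g (finSigmaFinEquiv.symm p) else 0)
      = ∑ x : (Σ a : Fin r, Fin (d a)), (if x.1 ∈ A then g x else 0) :=
    Equiv.sum_comp finSigmaFinEquiv.symm fun x : (Σ a : Fin r, Fin (d a)) =>
      if x.1 ∈ A then g x else 0
  rw [h1, Fintype.sum_sigma]
  have h2 : ∑ a ∈ A, ∑ i : Fin (d a), g ⟨a, i⟩
      = ∑ a : Fin r, if a ∈ A then ∑ i : Fin (d a), g ⟨a, i⟩ else 0 := by
    rw [Finset.sum_ite_mem, Finset.univ_inter]
  rw [h2]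
  refine Finset.sum_congr rfl fun a _ => ?_
  split_ifs with h
  · rfl
  · simp

theorem card_grpOf (A : Finset (Fin r)) : (grpOf d A).card = ∑ a ∈ A, d a := by
  have h := sum_grpOf d A fun _ => (1 : ℕ)
  simpa using h

/-- subset-level balance -/
def BalancedSub {S S' : Type} [Fintype S] [Fintype S'] (lev : S → ℕ) (sub : S → Finset (Fin r))
    (lev' : S' → ℕ) (sub' : S' → Finset (Fin r)) : Prop :=
  (∀ a, (∑ s, if a ∈ sub s then lev s else 0) = ∑ s, if a ∈ sub' s then lev' s else 0) ∧
    ∀ a a', (∑ s, if a ∈ sub s ∧ a' ∈ sub s then 1 else 0)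
      = ∑ s, if a ∈ sub' s ∧ a' ∈ sub' s then 1 else 0

theorem balanced_of_balancedSub {S S' : Type} [Fintype S] [Fintype S'] {lev : S → ℕ}
    {sub : S → Finset (Fin r)} {lev' : S' → ℕ} {sub' : S' → Finset (Fin r)}
    (h : BalancedSub lev sub lev' sub') :
    Balanced lev (fun s => grpOf d (sub s)) lev' (fun s => grpOf d (sub' s)) := by
  constructor
  · intro p
    simp only [levelAt, mem_grpOf]
    exact h.1 (blk d p)
  · intro pp _
    simp only [pairCount, mem_grpOf]
    exact h.2 (blk d pp.1) (blk d pp.2)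

end Blocks

/-! ### configurations of points -/

section Config

variable (N : ℕ) [NeZero N] {r : ℕ} (d : Fin r → ℕ)

/-- the configuration of points of a family of enumerations -/
def famP (Pa : ∀ a, Fin (d a) → Place Qb (FNb N)) (p : Fin (∑ a, d a)) : Place Qb (FNb N) :=
  Pa (finSigmaFinEquiv.symm p).1 (finSigmaFinEquiv.symm p).2

theorem divOn_grpOf (Pa : ∀ a, Fin (d a) → Place Qb (FNb N)) (A : Finset (Fin r)) :
    divOn N (famP N d Pa) (grpOf d A) = ∑ a ∈ A, sumDiv (Pa a) := by
  unfold divOn sumDiv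
  exact sum_grpOf d A fun x => Finsupp.single (Pa x.1 x.2) (1 : ℤ)

variable {N d}

theorem famP_injective {Pa : ∀ a, Fin (d a) → Place Qb (FNb N)}
    (hinj : Function.Injective fun x : (Σ a : Fin r, Fin (d a)) => Pa x.1 x.2) :
    Function.Injective (famP N d Pa) := by
  intro p p' h
  have := hinj h
  exact finSigmaFinEquiv.symm.injective this

theorem isRatDiv_sum {ι : Type*} (A : Finset ι) (D : ι → Divisor Qb (FNb N))
    (h : ∀ a ∈ A, IsRatDiv (D a)) : IsRatDiv (∑ a ∈ A, D a) := by
  classical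
  induction A using Finset.induction_on with
  | empty => simpa using isRatDiv_zero (N := N)
  | insert a A ha ih =>
    rw [Finset.sum_insert ha]
    exact IsRatDiv.add (h a (Finset.mem_insert_self a A))
      (ih fun b hb => h b (Finset.mem_insert_of_mem hb))

theorem goodOn_grpOf {Pa : ∀ a, Fin (d a) → Place Qb (FNb N)}
    (hinj : Function.Injective fun x : (Σ a : Fin r, Fin (d a)) => Pa x.1 x.2)
    (hoo : ∀ a i, Pa a i ≠ oo N) (hrat : ∀ a, IsRatDiv (sumDiv (Pa a))) (A : Finset (Fin r)) :
    GoodOn N (famP N d Pa) (grpOf d A) := by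
  refine ⟨(famP_injective hinj).injOn, fun p _ => hoo _ _, ?_⟩
  rw [divOn_grpOf]
  exact isRatDiv_sum A _ fun a _ => hrat a

/-- a reduced effective divisor is the sum of an injective family of places -/
theorem exists_enum (D : Divisor Qb (FNb N)) (h0 : 0 ≤ D) (h1 : ∀ v, D v ≤ 1) {n : ℕ}
    (hd : Divisor.degree D = n) :
    ∃ P : Fin n → Place Qb (FNb N), Function.Injective P ∧ sumDiv P = D := by
  classical
  have hone : ∀ v ∈ D.support, D v = 1 := by
    intro v hv
    have h2 : 0 ≤ D v := h0 v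
    have h3 : D v ≠ 0 := Finsupp.mem_support_iff.mp hv
    have h4 := h1 v
    omega
  have hD : D = ∑ v ∈ D.support, Finsupp.single v (1 : ℤ) := by
    conv_lhs => rw [← Finsupp.sum_single D]
    unfold Finsupp.sum
    exact Finset.sum_congr rfl fun v hv => by rw [hone v hv]
  have hcard : (D.support.card : ℤ) = n := by
    rw [← hd]
    conv_rhs => rw [hD]
    rw [map_sum]
    simp [Divisor.degree_single, Fermat.Agent.RR.ModularBar.deg_eq_one N]
  have hcard' : D.support.card = n := by exact_mod_cast hcard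
  let σ : Fin n ≃ ↥D.support := (finCongr hcard'.symm).trans D.support.equivFin.symm
  refine ⟨fun i => (σ i : Place Qb (FNb N)), ?_, ?_⟩
  · intro i j h
    exact σ.injective (Subtype.ext h)
  · unfold sumDiv
    rw [Equiv.sum_comp σ fun v : ↥D.support => Finsupp.single (v : Place Qb (FNb N)) (1 : ℤ),
      Finset.sum_coe_sort D.support fun v => Finsupp.single v (1 : ℤ)]
    exact hD.symm

end Config

/-! ### the general bound -/

section Bound

variable (N : ℕ) [NeZero N]

/-- **(LT) on `X₀(N)`, concrete form** (contract for `Star/AtO`): at every valuation ring of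
every generic field `KKBar N e` containing `ℚ` with algebraic residue field, the Plücker tuples of
the generic evaluation matrices have the (LT) weights, for groups with `#G + c ≤ L`. -/
def LTBar (c : ℕ) : Prop :=
  ∀ (e : ℕ) (O : ValuationSubring (KKBar N e)), (∀ q : ℚ, algebraMap ℚ (KKBar N e) q ∈ O) →
    AlgRes ℚ O → HasLT O (EBar N e) (fun L G => G.card + c ≤ L)

variable {N}

/-- **(★) for balanced monomials of sub-sums of a family of pairwise disjoint reduced rational
effective divisors off `∞`**, uniformly in the family (degrees and levels fixed). -/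
theorem bound_family {c : ℕ} (hLT : LTBar N c) (hα : AlphaBar N c) {r : ℕ} (d : Fin r → ℕ)
    {S S' : Type} [Fintype S] [Fintype S'] {lev : S → ℕ} {sub : S → Finset (Fin r)}
    {lev' : S' → ℕ} {sub' : S' → Finset (Fin r)} (hbal : BalancedSub lev sub lev' sub')
    (hok : ∀ s, (∑ a ∈ sub s, d a) + c ≤ lev s) (hok' : ∀ s, (∑ a ∈ sub' s, d a) + c ≤ lev' s) :
    ∃ C : ℝ, ∀ D : Fin r → Divisor Qb (FNb N), (∀ a, 0 ≤ D a) → (∀ a, IsRatDiv (D a)) →
      (∀ v, (∑ a, D a) v ≤ 1) → (∑ a, D a) (oo N) = 0 →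
      (∀ a, Divisor.degree (D a) = d a) →
      |∑ s, Hpl N (lev' s : ℤ) (∑ a ∈ sub' s, D a) - ∑ s, Hpl N (lev s : ℤ) (∑ a ∈ sub s, D a)|
        ≤ C := by
  classical
  obtain ⟨C, hC⟩ := bound_spec (k := ℚ) (kb := Qb) (E := EBar N (∑ a, d a))
    (ok := fun L G => G.card + c ≤ L) (hLT (∑ a, d a)) (balanced_of_balancedSub d hbal)
    (fun s => by rw [card_grpOf]; exact hok s) (fun s => by rw [card_grpOf]; exact hok' s)
    (fun h => Fermat.Agent.GR.H.HMAlg.HM_two_sided_algRes _ _ fun O hO hres => h O hO hres)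
    (GoodOn N) (fun L P G => Hpl N (L : ℤ) (divOn N P G))
  refine ⟨C, fun D h0 hrat h1 hoo hd => ?_⟩
  -- pointwise bounds
  have hle : ∀ a v, D a v ≤ (∑ b, D b) v := by
    intro a v
    rw [Finsupp.finsetSum_apply]
    exact Finset.single_le_sum (f := fun b => D b v) (fun b _ => h0 b v) (Finset.mem_univ a)
  have hone : ∀ a v, D a v ≤ 1 := fun a v => (hle a v).trans (h1 v)
  choose Pa hPinj hPsum using fun a => exists_enum (D a) (h0 a) (hone a) (hd a)
  have hval : ∀ a i, D a (Pa a i) = 1 := fun a i => by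
    rw [← hPsum a]; exact sumDiv_apply_of_injective (hPinj a) i
  have hinj : Function.Injective fun x : (Σ a : Fin r, Fin (d a)) => Pa x.1 x.2 := by
    rintro ⟨a, i⟩ ⟨a', i'⟩ h
    simp only at h
    by_cases haa : a = a'
    · subst haa
      rw [hPinj a h]
    · exfalso
      have h2 : (∑ b, D b) (Pa a i) ≤ 1 := h1 _
      rw [Finsupp.finsetSum_apply] at h2
      have h3 : D a (Pa a i) + D a' (Pa a i) ≤ ∑ b, D b (Pa a i) := by
        have : ∑ b ∈ ({a, a'} : Finset (Fin r)), D b (Pa a i) ≤ ∑ b, D b (Pa a i) :=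
          Finset.sum_le_sum_of_subset_of_nonneg (Finset.subset_univ _) fun b _ _ => h0 b _
        rwa [Finset.sum_pair haa] at this
      have h4 : D a' (Pa a i) = 1 := by rw [h]; exact hval a' i'
      have h5 := hval a i
      omega
  have hPoo : ∀ a i, Pa a i ≠ oo N := by
    intro a i h
    have h2 := hle a (oo N)
    rw [hoo, ← h, hval a i] at h2
    omega
  have hratP : ∀ a, IsRatDiv (sumDiv (Pa a)) := fun a => by rw [hPsum a]; exact hrat a
  have hgood : ∀ A, GoodOn N (famP N d Pa) (grpOf d A) := goodOn_grpOf hinj hPoo hratP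
  have h := hC (famP N d Pa) (specAt_bar hα _) (fun s => hgood _) (fun s => hgood _)
  simp only [divOn_grpOf, hPsum] at h
  exact h

end Bound

end Fermat.Agent.GR.H.Star.Family
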