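/-
GATE-R / node GR-H-STAR (helper3).

The three identities (★), (★∞1), (★∞2) of DESIGN-H v2 for the Plücker heights `Hpl` on `X₀(N)`,
in the shapes of the `HeightFrame` fields `star`, `starInf1`, `starInf2` (helper20 4875): uniform
constants over all levels `n ≤ M` and all degrees.

Inputs (binders): `Family.LTBar N c` and `SpecBar.AlphaBar N c`.
-/
import Mathlib
import Fermat.Agent.GR.H.Star.Family

set_option autoImplicit false

noncomputable section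

open AlgebraicCurve ModularCurve Finset

namespace Fermat.Agent.GR.H.Star.Frame

open Fermat.Agent.GR.H.PL Fermat.Agent.GR.H.Star.SpecBar Fermat.Agent.GR.H.Star.Family

local notation "Qb" => AlgebraicClosure ℚ

variable {N : ℕ} [NeZero N]

/-- uniform constant over a finite range of parameters -/
theorem exists_uniform {α : Type*} (s : Finset α) (Q : α → ℝ → Prop)
    (h : ∀ x ∈ s, ∃ C, Q x C) (hmono : ∀ x C C', C ≤ C' → Q x C → Q x C') :
    ∃ C, ∀ x ∈ s, Q x C := by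
  classical
  have h' : ∀ x, ∃ C, x ∈ s → Q x C := fun x => by
    by_cases hx : x ∈ s
    · obtain ⟨C, hC⟩ := h x hx
      exact ⟨C, fun _ => hC⟩
    · exact ⟨0, fun hx' => absurd hx' hx⟩
  choose Cf hCf using h'
  refine ⟨∑ x ∈ s, |Cf x|, fun x hx => hmono x (Cf x) _ ?_ (hCf x hx)⟩
  exact (le_abs_self _).trans
    (Finset.single_le_sum (f := fun x => |Cf x|) (fun _ _ => abs_nonneg _) hx)

/-! ### (★) -/

theorem balancedSub_cube (n : ℕ) :
    BalancedSub (r := 3) (fun _ : Fin 4 => n) ![{0, 1, 2}, {0}, {1}, {2}]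
      (fun _ : Fin 3 => n) ![{0, 1}, {0, 2}, {1, 2}] := by
  constructor
  · intro a
    fin_cases a <;> simp [Fin.sum_univ_four, Fin.sum_univ_three]
  · decide

/-- good family: effective, rational, jointly reduced and off `∞` -/
def GoodFam {r : ℕ} (D : Fin r → Divisor Qb (FNb N)) : Prop :=
  (∀ a, 0 ≤ D a) ∧ (∀ a, IsRatDiv (D a)) ∧ (∀ v, (∑ a, D a) v ≤ 1) ∧ (∑ a, D a) (oo N) = 0

theorem sum_sub_le {r : ℕ} (d : Fin r → ℕ) (A : Finset (Fin r)) : ∑ a ∈ A, d a ≤ ∑ a, d a :=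
  Finset.sum_le_sum_of_subset (Finset.subset_univ A)

theorem star_fixed {c : ℕ} (hLT : LTBar N c) (hα : AlphaBar N c) (n : ℕ) (d : Fin 3 → ℕ)
    (h : (∑ a, d a) + c ≤ n) :
    ∃ C : ℝ, ∀ D : Fin 3 → Divisor Qb (FNb N), GoodFam D → (∀ a, Divisor.degree (D a) = d a) →
      |Hpl N (n : ℤ) (D 0 + D 1 + D 2) - Hpl N (n : ℤ) (D 0 + D 1) - Hpl N (n : ℤ) (D 0 + D 2)
        - Hpl N (n : ℤ) (D 1 + D 2) + Hpl N (n : ℤ) (D 0) + Hpl N (n : ℤ) (D 1)
        + Hpl N (n : ℤ) (D 2)| ≤ C := by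
  obtain ⟨C, hC⟩ := bound_family hLT hα d (balancedSub_cube n)
    (fun s => (Nat.add_le_add_right (sum_sub_le d _) c).trans h)
    (fun s => (Nat.add_le_add_right (sum_sub_le d _) c).trans h)
  refine ⟨C, fun D hD hd => ?_⟩
  have h1 := hC D hD.1 hD.2.1 hD.2.2.1 hD.2.2.2 hd
  have e012 : ∑ a ∈ ({0, 1, 2} : Finset (Fin 3)), D a = D 0 + D 1 + D 2 := by
    rw [Finset.sum_insert (by decide), Finset.sum_pair (by decide), add_assoc]
  have e01 : ∑ a ∈ ({0, 1} : Finset (Fin 3)), D a = D 0 + D 1 := Finset.sum_pair (by decide)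
  have e02 : ∑ a ∈ ({0, 2} : Finset (Fin 3)), D a = D 0 + D 2 := Finset.sum_pair (by decide)
  have e12 : ∑ a ∈ ({1, 2} : Finset (Fin 3)), D a = D 1 + D 2 := Finset.sum_pair (by decide)
  simp only [Fin.sum_univ_four, Fin.sum_univ_three, Matrix.cons_val_zero, Matrix.cons_val_one,
    Matrix.cons_val_two, Matrix.cons_val_three, Matrix.head_cons, Matrix.tail_cons, e012, e01,
    e02, e12, Finset.sum_singleton] at h1
  rw [abs_sub_comm] at h1
  convert h1 using 2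
  ring

/-- **(★)** in the shape of `HeightFrame.star`. -/
theorem star_bar {c : ℕ} (hLT : LTBar N c) (hα : AlphaBar N c) (M : ℕ) :
    ∃ C : ℝ, ∀ (n : ℕ) (D₁ D₂ D₃ : Divisor Qb (FNb N)) (d₁ d₂ d₃ : ℕ), n ≤ M →
      GoodFam ![D₁, D₂, D₃] → Divisor.degree D₁ = d₁ → Divisor.degree D₂ = d₂ →
      Divisor.degree D₃ = d₃ → d₁ + d₂ + d₃ + c ≤ n →
      |Hpl N (n : ℤ) (D₁ + D₂ + D₃) - Hpl N (n : ℤ) (D₁ + D₂) - Hpl N (n : ℤ) (D₁ + D₃)
        - Hpl N (n : ℤ) (D₂ + D₃) + Hpl N (n : ℤ) D₁ + Hpl N (n : ℤ) D₂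
        + Hpl N (n : ℤ) D₃| ≤ C := by
  classical
  obtain ⟨C, hC⟩ := exists_uniform
    ((Finset.range (M + 1)) ×ˢ (Fintype.piFinset fun _ : Fin 3 => Finset.range (M + 1)))
    (fun x C => (∑ a, x.2 a) + c ≤ x.1 →
      ∀ D : Fin 3 → Divisor Qb (FNb N), GoodFam D → (∀ a, Divisor.degree (D a) = x.2 a) →
      |Hpl N (x.1 : ℤ) (D 0 + D 1 + D 2) - Hpl N (x.1 : ℤ) (D 0 + D 1)
        - Hpl N (x.1 : ℤ) (D 0 + D 2) - Hpl N (x.1 : ℤ) (D 1 + D 2) + Hpl N (x.1 : ℤ) (D 0)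
        + Hpl N (x.1 : ℤ) (D 1) + Hpl N (x.1 : ℤ) (D 2)| ≤ C)
    (fun x _ => by
      by_cases hx : (∑ a, x.2 a) + c ≤ x.1
      · obtain ⟨C, hC⟩ := star_fixed hLT hα x.1 x.2 hx
        exact ⟨C, fun _ => hC⟩
      · exact ⟨0, fun h => absurd h hx⟩)
    (fun x C C' hCC h hx D hD hd => (h hx D hD hd).trans hCC)
  refine ⟨C, fun n D₁ D₂ D₃ d₁ d₂ d₃ hn hgood h1 h2 h3 hdeg => ?_⟩
  have hsum : ∑ a, ![d₁, d₂, d₃] a = d₁ + d₂ + d₃ := by
    simp [Fin.sum_univ_three]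
  have hmem : (n, ![d₁, d₂, d₃]) ∈
      (Finset.range (M + 1)) ×ˢ (Fintype.piFinset fun _ : Fin 3 => Finset.range (M + 1)) := by
    rw [Finset.mem_product, Finset.mem_range, Fintype.mem_piFinset]
    refine ⟨by omega, fun a => ?_⟩
    rw [Finset.mem_range]
    fin_cases a <;> simp <;> omega
  have := hC _ hmem (by rw [hsum]; exact hdeg) ![D₁, D₂, D₃] hgood
    (fun a => by fin_cases a <;> simp [h1, h2, h3])
  simpa using this

/-! ### (★∞1) -/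

theorem balancedSub_inf1 (L : ℕ) :
    BalancedSub (r := 2) ![L + 1, L, L] ![{0, 1}, {0}, {1}] ![L, L + 1, L + 1]
      ![{0, 1}, {0}, {1}] := by
  constructor
  · intro a
    fin_cases a <;> simp [Fin.sum_univ_three] <;> omega
  · intro a a'
    rfl

theorem inf1_fixed {c : ℕ} (hLT : LTBar N c) (hα : AlphaBar N c) (L : ℕ) (d : Fin 2 → ℕ)
    (h : (∑ a, d a) + c ≤ L) :
    ∃ C : ℝ, ∀ D : Fin 2 → Divisor Qb (FNb N), GoodFam D → (∀ a, Divisor.degree (D a) = d a) →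
      |(Hpl N ((L + 1 : ℕ) : ℤ) (D 0 + D 1) - Hpl N (L : ℤ) (D 0 + D 1))
        - (Hpl N ((L + 1 : ℕ) : ℤ) (D 0) - Hpl N (L : ℤ) (D 0))
        - (Hpl N ((L + 1 : ℕ) : ℤ) (D 1) - Hpl N (L : ℤ) (D 1))| ≤ C := by
  have hlev : ∀ s : Fin 3, L ≤ ![L + 1, L, L] s := fun s => by fin_cases s <;> simp
  have hlev' : ∀ s : Fin 3, L ≤ ![L, L + 1, L + 1] s := fun s => by fin_cases s <;> simp
  obtain ⟨C, hC⟩ := bound_family hLT hα d (balancedSub_inf1 L)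
    (fun s => ((Nat.add_le_add_right (sum_sub_le d _) c).trans h).trans (hlev s))
    (fun s => ((Nat.add_le_add_right (sum_sub_le d _) c).trans h).trans (hlev' s))
  refine ⟨C, fun D hD hd => ?_⟩
  have h1 := hC D hD.1 hD.2.1 hD.2.2.1 hD.2.2.2 hd
  have e01 : ∑ a ∈ ({0, 1} : Finset (Fin 2)), D a = D 0 + D 1 := Finset.sum_pair (by decide)
  simp only [Fin.sum_univ_three, Matrix.cons_val_zero, Matrix.cons_val_one,
    Matrix.cons_val_two, Matrix.head_cons, Matrix.tail_cons, e01, Finset.sum_singleton] at h1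
  rw [abs_sub_comm] at h1
  convert h1 using 2
  ring

/-- **(★∞1)** in the shape of `HeightFrame.starInf1`. -/
theorem starInf1_bar {c : ℕ} (hLT : LTBar N c) (hα : AlphaBar N c) (M : ℕ) :
    ∃ C : ℝ, ∀ (n : ℕ) (D₁ D₂ : Divisor Qb (FNb N)) (d₁ d₂ : ℕ), n ≤ M →
      GoodFam ![D₁, D₂] → Divisor.degree D₁ = d₁ → Divisor.degree D₂ = d₂ →
      d₁ + d₂ + c + 1 ≤ n →
      |(Hpl N (n : ℤ) (D₁ + D₂) - Hpl N ((n - 1 : ℕ) : ℤ) (D₁ + D₂))
        - (Hpl N (n : ℤ) D₁ - Hpl N ((n - 1 : ℕ) : ℤ) D₁)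
        - (Hpl N (n : ℤ) D₂ - Hpl N ((n - 1 : ℕ) : ℤ) D₂)| ≤ C := by
  classical
  obtain ⟨C, hC⟩ := exists_uniform
    ((Finset.range (M + 1)) ×ˢ (Fintype.piFinset fun _ : Fin 2 => Finset.range (M + 1)))
    (fun x C => (∑ a, x.2 a) + c ≤ x.1 →
      ∀ D : Fin 2 → Divisor Qb (FNb N), GoodFam D → (∀ a, Divisor.degree (D a) = x.2 a) →
      |(Hpl N ((x.1 + 1 : ℕ) : ℤ) (D 0 + D 1) - Hpl N (x.1 : ℤ) (D 0 + D 1))
        - (Hpl N ((x.1 + 1 : ℕ) : ℤ) (D 0) - Hpl N (x.1 : ℤ) (D 0))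
        - (Hpl N ((x.1 + 1 : ℕ) : ℤ) (D 1) - Hpl N (x.1 : ℤ) (D 1))| ≤ C)
    (fun x _ => by
      by_cases hx : (∑ a, x.2 a) + c ≤ x.1
      · obtain ⟨C, hC⟩ := inf1_fixed hLT hα x.1 x.2 hx
        exact ⟨C, fun _ => hC⟩
      · exact ⟨0, fun h => absurd h hx⟩)
    (fun x C C' hCC h hx D hD hd => (h hx D hD hd).trans hCC)
  refine ⟨C, fun n D₁ D₂ d₁ d₂ hn hgood h1 h2 hdeg => ?_⟩
  obtain ⟨L, rfl⟩ : ∃ L, n = L + 1 := ⟨n - 1, by omega⟩
  have hsum : ∑ a, ![d₁, d₂] a = d₁ + d₂ := by simp [Fin.sum_univ_two]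
  have hmem : (L, ![d₁, d₂]) ∈
      (Finset.range (M + 1)) ×ˢ (Fintype.piFinset fun _ : Fin 2 => Finset.range (M + 1)) := by
    rw [Finset.mem_product, Finset.mem_range, Fintype.mem_piFinset]
    refine ⟨by omega, fun a => ?_⟩
    rw [Finset.mem_range]
    fin_cases a <;> simp <;> omega
  have := hC _ hmem (by rw [hsum]; omega) ![D₁, D₂] hgood
    (fun a => by fin_cases a <;> simp [h1, h2])
  simpa using this

/-! ### (★∞2) -/

theorem balancedSub_inf2 (L : ℕ) :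
    BalancedSub (r := 1) ![L + 2, L] ![{0}, {0}] ![L + 1, L + 1] ![{0}, {0}] := by
  constructor
  · intro a
    fin_cases a
    simp [Fin.sum_univ_two]
    omega
  · intro a a'
    rfl

theorem inf2_fixed {c : ℕ} (hLT : LTBar N c) (hα : AlphaBar N c) (L : ℕ) (d : Fin 1 → ℕ)
    (h : (∑ a, d a) + c ≤ L) :
    ∃ C : ℝ, ∀ D : Fin 1 → Divisor Qb (FNb N), GoodFam D → (∀ a, Divisor.degree (D a) = d a) →
      |Hpl N ((L + 2 : ℕ) : ℤ) (D 0) - 2 * Hpl N ((L + 1 : ℕ) : ℤ) (D 0)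
        + Hpl N (L : ℤ) (D 0)| ≤ C := by
  have hlev : ∀ s : Fin 2, L ≤ ![L + 2, L] s := fun s => by fin_cases s <;> simp
  have hlev' : ∀ s : Fin 2, L ≤ ![L + 1, L + 1] s := fun s => by fin_cases s <;> simp
  obtain ⟨C, hC⟩ := bound_family hLT hα d (balancedSub_inf2 L)
    (fun s => ((Nat.add_le_add_right (sum_sub_le d _) c).trans h).trans (hlev s))
    (fun s => ((Nat.add_le_add_right (sum_sub_le d _) c).trans h).trans (hlev' s))
  refine ⟨C, fun D hD hd => ?_⟩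
  have h1 := hC D hD.1 hD.2.1 hD.2.2.1 hD.2.2.2 hd
  simp only [Fin.sum_univ_two, Matrix.cons_val_zero, Matrix.cons_val_one,
    Matrix.head_cons, Finset.sum_singleton] at h1
  rw [abs_sub_comm] at h1
  convert h1 using 2
  ring

/-- **(★∞2)** in the shape of `HeightFrame.starInf2`. -/
theorem starInf2_bar {c : ℕ} (hLT : LTBar N c) (hα : AlphaBar N c) (M : ℕ) :
    ∃ C : ℝ, ∀ (n : ℕ) (D : Divisor Qb (FNb N)) (d : ℕ), n ≤ M →
      GoodFam ![D] → Divisor.degree D = d → d + c + 2 ≤ n →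
      |Hpl N (n : ℤ) D - 2 * Hpl N ((n - 1 : ℕ) : ℤ) D + Hpl N ((n - 2 : ℕ) : ℤ) D| ≤ C := by
  classical
  obtain ⟨C, hC⟩ := exists_uniform
    ((Finset.range (M + 1)) ×ˢ (Fintype.piFinset fun _ : Fin 1 => Finset.range (M + 1)))
    (fun x C => (∑ a, x.2 a) + c ≤ x.1 →
      ∀ D : Fin 1 → Divisor Qb (FNb N), GoodFam D → (∀ a, Divisor.degree (D a) = x.2 a) →
      |Hpl N ((x.1 + 2 : ℕ) : ℤ) (D 0) - 2 * Hpl N ((x.1 + 1 : ℕ) : ℤ) (D 0)
        + Hpl N (x.1 : ℤ) (D 0)| ≤ C)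
    (fun x _ => by
      by_cases hx : (∑ a, x.2 a) + c ≤ x.1
      · obtain ⟨C, hC⟩ := inf2_fixed hLT hα x.1 x.2 hx
        exact ⟨C, fun _ => hC⟩
      · exact ⟨0, fun h => absurd h hx⟩)
    (fun x C C' hCC h hx D hD hd => (h hx D hD hd).trans hCC)
  refine ⟨C, fun n D d hn hgood h1 hdeg => ?_⟩
  obtain ⟨L, rfl⟩ : ∃ L, n = L + 2 := ⟨n - 2, by omega⟩
  have hsum : ∑ a, ![d] a = d := by simp
  have hmem : (L, ![d]) ∈
      (Finset.range (M + 1)) ×ˢ (Fintype.piFinset fun _ : Fin 1 => Finset.range (M + 1)) := by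
    rw [Finset.mem_product, Finset.mem_range, Fintype.mem_piFinset]
    refine ⟨by omega, fun a => ?_⟩
    rw [Finset.mem_range]
    fin_cases a
    simp
    omega
  have := hC _ hmem (by rw [hsum]; omega) ![D] hgood (fun a => by fin_cases a; simp [h1])
  simpa using this

end Fermat.Agent.GR.H.Star.Frame
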