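/-
GATE-R (S17) / node GR-H-STAR-HASLT-GENBAR (helper49): **(LT) for the generic points of
`X₀(N)` over `ℚ̄`, with no open input.**

`hasLT_genBar` : for every valuation subring `O` of the generic `e`-point field `KKBar N e`
containing `ℚ` with residue field algebraic over `ℚ`, every place `inf` and every family of
spanning sets `b L` of `L(L·inf)`, helper3's `Generic.HasLT O (fun L p j => genBar N p (b L j)) ok`
holds in the range `ok L G := G.card + oscC N ≤ L`, `oscC N` the uniform (OSC) threshold.

Plug of `HasLTInst.hasLT_of_centres` with: helper90's `ResQb.rat_subset_and_residues`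
(`ℚ̄ ⊆ O`, residues in `ℚ̄`), helper41's `Gen.exists_place_genBar` / `Gen.genBar_eq_genBar`
(centres, genericity), and helper37's `OscAbs.exists_det_ne_zero_inf` (OSC).
-/
import Fermat.Agent.GR.H.Star.HasLTInst
import Fermat.Agent.GR.H.Star.ResQb
import Fermat.Agent.GR.H.Gen.Place
import Fermat.Agent.GR.H.LT.OscAbs

set_option autoImplicit false

open AlgebraicCurve ModularCurve Finset

namespace Fermat.Agent.GR.H.Star.HasLTGenBar

open Fermat.Agent.S24 Fermat.Agent.GR.H.PlaceVal Fermat.Agent.GR.H.LT.Newton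
  Fermat.Agent.GR.H.LT.NewtonPos Fermat.Agent.GR.H.Star.HasLTInst Fermat.Agent.GR.H.Gen

variable (N : ℕ) [NeZero N]

local notation "Qb" => AlgebraicClosure ℚ

/-- all places of `ℚ̄(X₀(N))` have degree one -/
theorem deg_eq_one' (P : Place Qb ↥(modularFunctionFieldBar N)) : P.deg = 1 :=
  Fermat.Agent.RR.ModularBar.deg_eq_one N P

/-- the statement of (OSC) for `ℚ̄(X₀(N))` at the threshold `c` -/
theorem exists_oscC : ∃ c : ℕ,
    ∀ {ι : Type} [Fintype ι] [DecidableEq ι] [DecidableEq (Place Qb ↥(modularFunctionFieldBar N))]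
      (cen : ι → Place Qb ↥(modularFunctionFieldBar N)) (pos : ι → ℕ),
      (Function.Injective fun p => (cen p, pos p)) →
      (∀ p, pos p < (Finset.univ.filter fun p' => cen p' = cen p).card) →
      ∀ (inf : Place Qb ↥(modularFunctionFieldBar N)) (q : ↥(modularFunctionFieldBar N)), inf.ord q = 1 →
      ∀ (L : ℕ), Fintype.card ι + c ≤ L →
      ∀ (t : Place Qb ↥(modularFunctionFieldBar N) → ↥(modularFunctionFieldBar N)), (∀ p, (cen p).ord (t (cen p)) = 1) →
      ∀ {κ : Type} [Fintype κ] [DecidableEq κ] (b : κ → ↥(modularFunctionFieldBar N)),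
      (∀ j, b j ∈ riemannRochSpace (Finsupp.single inf (L : ℤ))) →
      riemannRochSpace (Finsupp.single inf (L : ℤ)) ≤ Submodule.span Qb (Set.range b) →
      ∃ c0 : ι → κ, Matrix.det (fun p q' : ι =>
        taylorCoeff (cen p) (t (cen p)) (pos p)
          ((if cen p = inf then q ^ L else 1) * b (c0 q'))) ≠ 0 := by
  have := Fermat.Agent.RR.ModularBar.hasPrincipalDivisors N
  have := Fermat.Agent.RR.ModularBar.finiteResidues N
  have := Fermat.Agent.RR.ModularBar.nonempty_place N
  obtain ⟨c, hc⟩ := Fermat.Agent.GR.H.LT.OscAbs.exists_det_ne_zero_inf Qb ↥(modularFunctionFieldBar N) (deg_eq_one' N)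
  refine ⟨c.toNat, ?_⟩
  intro ι _ _ _ cen pos hinj hpos inf q hq L hL t ht κ _ _ b hb hspan
  refine hc cen pos hinj hpos inf q hq L ?_ t ht b hb hspan
  have h1 : c ≤ (c.toNat : ℤ) := Int.self_le_toNat c
  have h2 : ((Fintype.card ι + c.toNat : ℕ) : ℤ) ≤ (L : ℤ) := by exact_mod_cast hL
  push_cast at h2
  omega

/-- the uniform (OSC) threshold of `ℚ̄(X₀(N))` -/
noncomputable def oscC : ℕ := Classical.choose (exists_oscC N)

/-- **(LT) at one `O`, concrete.** -/
theorem hasLT_genBar {e : ℕ} (O : ValuationSubring (KKBar N e))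
    (hQ : ∀ c : ℚ, algebraMap ℚ (KKBar N e) c ∈ O)
    (hres : Fermat.Agent.GR.H.Star.Generic.AlgRes ℚ O)
    (inf : Place Qb ↥(modularFunctionFieldBar N))
    {κ : ℕ → Type} [∀ L, Fintype (κ L)] (b : ∀ L, κ L → ↥(modularFunctionFieldBar N))
    (hb : ∀ (L : ℕ) (j : κ L), b L j ∈ riemannRochSpace (Finsupp.single inf (L : ℤ)))
    (hspan : ∀ L : ℕ, riemannRochSpace (Finsupp.single inf (L : ℤ)) ≤
      Submodule.span Qb (Set.range (b L))) :
    Fermat.Agent.GR.H.Star.Generic.HasLT O
      (fun L (p : Fin e) j => genBar N p (b L j)) (fun L G => G.card + oscC N ≤ L) := by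
  classical
  have := Fermat.Agent.RR.ModularBar.isGen_jF N
  obtain ⟨hO, hrat⟩ := Fermat.Agent.GR.H.Star.ResQb.rat_subset_and_residues O hQ hres
  -- uniformisers at all places
  have hunif : ∀ Q : Place Qb ↥(modularFunctionFieldBar N), ∃ u : ↥(modularFunctionFieldBar N), Q.ord u = 1 := fun Q =>
    ⟨((IsDiscreteValuationRing.exists_irreducible Q.toValuationSubring).choose : ↥(modularFunctionFieldBar N)),
      Q.ord_coe_irreducible
        (IsDiscreteValuationRing.exists_irreducible Q.toValuationSubring).choose_spec⟩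
  choose u hu using hunif
  have hu0 : ∀ Q : Place Qb ↥(modularFunctionFieldBar N), u Q ≠ 0 := by
    intro Q h0
    have := hu Q
    rw [h0] at this
    simp at this
  have hpowreg : ∀ (L : ℕ) (Q : Place Qb ↥(modularFunctionFieldBar N)),
      regFactor inf u Q ^ L = if Q = inf then u inf ^ L else 1 := by
    intro L Q
    unfold regFactor
    split_ifs
    · rfl
    · exact one_pow L
  refine hasLT_of_centres (jF N) (fun p : Fin e => genBar N p)
    (fun p p' f h => genBar_eq_genBar N h) O hO
    (fun p => (exists_place_genBar N O hO hrat p).imp fun P hP => hP.1)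
    u hu inf b ?_ _ ?_
  · -- regularity
    intro L j Q
    rw [hpowreg]
    refine Fermat.Agent.GR.H.LT.OscAbs.mul_mem_valuationSubring
      (A := Finsupp.single inf (L : ℤ)) ?_ ?_ (hb L j)
    · split_ifs
      · exact pow_ne_zero L (hu0 inf)
      · exact one_ne_zero
    · split_ifs with h
      · rw [h, Finsupp.single_eq_same, ← zpow_natCast, Place.ord_zpow, hu inf, mul_one]
      · rw [Finsupp.single_eq_of_ne h, Place.ord_one]
  · -- (OSC)
    intro cen L G hok
    have hcard : Fintype.card ↥G + oscC N ≤ L := by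
      rw [Fintype.card_coe]; exact hok
    obtain ⟨c0, hc0⟩ := Classical.choose_spec (exists_oscC N) (ι := ↥G)
      (fun p : ↥G => cen p.1) (pos (fun p : ↥G => cen p.1))
      (cen_pos_injective _) (fun p => pos_lt_card_block _ p) inf (u inf) (hu inf) L hcard
      u (fun p => hu _) (b L) (hb L) (hspan L)
    refine ⟨c0, ?_⟩
    simp only [hpowreg]
    exact hc0
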