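import Fermat.Agent.GR.H.Star.HasLTInst
import Fermat.Agent.GR.H.LT.OscAbs
import Fermat.Agent.RR.CharZero

/-!
GATE-R (S17) / node GR-H-STAR-HASLT-OSC (helper50): **helper49's `HasLTInst.hasLT_of_centres` with the
(OSC) binder `hosc` discharged** by helper37's `LT/OscAbs.exists_det_ne_zero`.

Frame of `HasLTInst`: `F / k` a function field with a generator (`[IsGen k x]`), `k` algebraically
closed of characteristic zero (so all the RR instances and `deg P = 1` are theorems).

* `ord_regFactor_pow`, `regFactor_pow_ne_zero`, `regFactor_pow_mul_mem` : the regularising factor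
  `regFactor inf u Q ^ L` has order `(L · inf) Q` at `Q`, so it regularises `L(L · inf)` at every place
  (this is the `hreg` input of `hasLT_of_centres`, DERIVED from `b L j ∈ L(L · inf)`);
* `exists_hosc` : there is a threshold `c₁ : ℕ` such that the `hosc` binder of `hasLT_of_centres` holds
  with `ok L G := G.card + c₁ ≤ L`, for all families `b L` spanning `L(L · inf)`;
* `exists_hasLT_of_centres` : **binder-free (LT)**: `∃ c₁, ∀ …, Generic.HasLT O (fun L p j => φ p (b L j))
  (fun L G => G.card + c₁ ≤ L)`.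
-/

set_option autoImplicit false

open AlgebraicCurve Finset

namespace Fermat.Agent.GR.H.Star.HasLTOsc

open Fermat.Agent.S24 Fermat.Agent.RRh45 Fermat.Agent.GR.H.PlaceVal Fermat.Agent.GR.H.LT.Newton
  Fermat.Agent.GR.H.LT.NewtonPos Fermat.Agent.GR.H.Star.HasLTInst

variable {k F : Type*} [Field k] [Field F] [Algebra k F]

/-! ### the regularising factor -/

section Reg

variable (inf : Place k F) (u : Place k F → F) (hu : ∀ Q : Place k F, Q.ord (u Q) = 1)
include hu

theorem regFactor_ne_zero (Q : Place k F) : regFactor inf u Q ≠ 0 := by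
  unfold regFactor
  split_ifs
  · intro h0
    have := hu inf
    rw [h0, Place.ord_zero] at this
    exact zero_ne_one this
  · exact one_ne_zero

theorem regFactor_pow_ne_zero (L : ℕ) (Q : Place k F) : regFactor inf u Q ^ L ≠ 0 :=
  pow_ne_zero L (regFactor_ne_zero inf u hu Q)

theorem ord_regFactor_pow (L : ℕ) (Q : Place k F) :
    Q.ord (regFactor inf u Q ^ L) = (Finsupp.single inf (L : ℤ) : Divisor k F) Q := by
  rw [← zpow_natCast, Place.ord_zpow]
  unfold regFactor
  split_ifs with h
  · rw [h, hu inf, Finsupp.single_eq_same, mul_one]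
  · rw [Place.ord_one, mul_zero, Finsupp.single_eq_of_ne h]

/-- `hreg` of `hasLT_of_centres` from membership in `L(L · inf)` -/
theorem regFactor_pow_mul_mem {L : ℕ} {f : F}
    (hf : f ∈ riemannRochSpace (Finsupp.single inf (L : ℤ) : Divisor k F)) (Q : Place k F) :
    regFactor inf u Q ^ L * f ∈ Q.toValuationSubring :=
  Fermat.Agent.GR.H.LT.OscAbs.mul_mem_valuationSubring (regFactor_pow_ne_zero inf u hu L Q)
    (ord_regFactor_pow inf u hu L Q) hf

end Reg

/-! ### the `hosc` binder -/

section Osc

variable [IsAlgClosed k] [CharZero k]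

/-- **(OSC) in the exact shape of the `hosc` binder of `HasLTInst.hasLT_of_centres`.** -/
theorem exists_hosc (x : F) [IsGen k x] : ∃ c₁ : ℕ,
    ∀ {T : Type} [DecidableEq T] [LinearOrder T] [DecidableEq (Place k F)]
      (u : Place k F → F), (∀ Q : Place k F, Q.ord (u Q) = 1) →
      ∀ (inf : Place k F) {κ : ℕ → Type} [∀ L, Finite (κ L)] (b : ∀ L, κ L → F),
      (∀ (L : ℕ) (j : κ L),
        b L j ∈ riemannRochSpace (Finsupp.single inf (L : ℤ) : Divisor k F)) →
      (∀ L : ℕ, riemannRochSpace (Finsupp.single inf (L : ℤ) : Divisor k F) ≤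
        Submodule.span k (Set.range (b L))) →
      ∀ (cen : T → Place k F) (L : ℕ) (G : Finset T), G.card + c₁ ≤ L →
        ∃ c0 : ↥G → κ L, Matrix.det (fun (p : ↥G) (q : ↥G) =>
          taylorCoeff (cen p.1) (u (cen p.1)) (pos (fun p : ↥G => cen p.1) p)
            (regFactor inf u (cen p.1) ^ L * b L (c0 q))) ≠ 0 := by
  have := Fermat.Agent.RR.CharZero.finiteResidues (K := k) x
  have := Fermat.Agent.RR.CharZero.nonempty_place (K := k) x
  have := Fermat.Agent.S24.FF1.hasPrincipalDivisors (K := k) x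
  have hdeg : ∀ P : Place k F, P.deg = 1 := fun P => PlaceB.deg_eq_one P x
  obtain ⟨c, hc⟩ := Fermat.Agent.GR.H.LT.OscAbs.exists_det_ne_zero k F hdeg
  refine ⟨c.toNat, ?_⟩
  intro T _ _ _ u hu inf κ _ b hb hspan cen L G hL
  classical
  have : Fintype (κ L) := Fintype.ofFinite _
  have hA : c + Fintype.card ↥G ≤ Divisor.degree (Finsupp.single inf (L : ℤ) : Divisor k F) := by
    rw [Divisor.degree_single, hdeg inf, Fintype.card_coe]
    have := Int.self_le_toNat c
    push_cast
    omega
  have key := hc (fun p : ↥G => cen p.1) (pos (fun p : ↥G => cen p.1))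
    (cen_pos_injective _) (fun p => pos_lt_card_block _ p)
    (Finsupp.single inf (L : ℤ)) hA u (fun Q => regFactor inf u Q ^ L)
    (fun p => hu _) (fun p => regFactor_pow_ne_zero inf u hu L _)
    (fun p => ord_regFactor_pow inf u hu L _) (b L) (hb L) (hspan L)
  exact key

/-- **binder-free (LT)**: helper49's `hasLT_of_centres` with (OSC) discharged; the regularity input
`hreg` is derived from `b L j ∈ L(L · inf)`. -/
theorem exists_hasLT_of_centres (x : F) [IsGen k x] : ∃ c₁ : ℕ,
    ∀ {KK : Type*} [Field KK] [Algebra k KK] {T : Type} [DecidableEq T] [LinearOrder T]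
      (φ : T → F →ₐ[k] KK),
      (∀ (p p' : T) (f : F), φ p f = φ p' f → p = p' ∨ f ∈ Set.range (algebraMap k F)) →
      ∀ (O : ValuationSubring KK), (∀ c : k, algebraMap k KK c ∈ O) →
      (∀ p, ∃ P : Place k F, ∀ g, φ p g ∈ O ↔ g ∈ P.toValuationSubring) →
      ∀ (u : Place k F → F), (∀ Q : Place k F, Q.ord (u Q) = 1) →
      ∀ (inf : Place k F) {κ : ℕ → Type} [∀ L, Finite (κ L)] (b : ∀ L, κ L → F),
      (∀ (L : ℕ) (j : κ L),
        b L j ∈ riemannRochSpace (Finsupp.single inf (L : ℤ) : Divisor k F)) →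
      (∀ L : ℕ, riemannRochSpace (Finsupp.single inf (L : ℤ) : Divisor k F) ≤
        Submodule.span k (Set.range (b L))) →
      Generic.HasLT O (fun L p j => φ p (b L j)) (fun L G => G.card + c₁ ≤ L) := by
  obtain ⟨c₁, hc₁⟩ := exists_hosc (k := k) (F := F) x
  refine ⟨c₁, ?_⟩
  intro KK _ _ T _ _ φ hgen O hO hcen u hu inf κ _ b hb hspan
  exact hasLT_of_centres x φ hgen O hO hcen u hu inf b
    (fun L j Q => regFactor_pow_mul_mem inf u hu (hb L j) Q) (fun L G => G.card + c₁ ≤ L)
    (fun cen L G hok => by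
      classical
      exact hc₁ u hu inf b hb hspan cen L G hok)

end Osc

end Fermat.Agent.GR.H.Star.HasLTOsc
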