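import Fermat.Agent.GR.H.Star.HasLTOsc
import Fermat.Agent.GR.H.PL.Coord

/-!
GATE-R (S17) / node GR-H-STAR-HASLT-OSC (helper50), part 2: **binder-free (LT) on `ℚ̄(X₀(N))` for
helper43's level bases `bV N L`** (`PL/Coord`).

* `bV_mem_single`, `le_span_bV_single` : `bV N L j ∈ L(L · ∞)` and the `ℚ̄`-span of the `ℚ`-basis
  `bV N L` of `V_L = L_ℚ(L ∞)` contains `L(L · ∞)` (Speiser `PL.span_I`), with the divisor spelled
  `Finsupp.single (oo N) L`;
* `exists_hasLT_bV` : `∃ c₁, ∀ generic points φ with centres at O, …,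
  Generic.HasLT O (fun L p j => φ p (bV N L j)) (fun L G => G.card + c₁ ≤ L)`.
-/

set_option autoImplicit false

open AlgebraicCurve ModularCurve

namespace Fermat.Agent.GR.H.Star.HasLTOscPL

open Fermat.Agent.GR.H.PL Fermat.Agent.GR.H.Star.HasLTOsc

local notation "Qb" => AlgebraicClosure ℚ

variable {N : ℕ} [NeZero N]

theorem twist_zero_eq (L : ℤ) :
    twist (N := N) L 0 = (Finsupp.single (oo N) L : Divisor Qb (FNb N)) := by
  unfold twist
  rw [sub_zero]

theorem bV_mem_single (L : ℤ) (j : Fin (dV N L)) :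
    ((bV N L j : V (N := N) L) : FNb N) ∈
      riemannRochSpace (Finsupp.single (oo N) L : Divisor Qb (FNb N)) := by
  rw [← twist_zero_eq]
  exact (mem_I.mp (bV N L j).2).2

/-- the `ℚ̄`-span of the `ℚ`-basis `bV N L` of `V_L` contains `L(L ∞)` -/
theorem le_span_bV_single (L : ℤ) :
    riemannRochSpace (Finsupp.single (oo N) L : Divisor Qb (FNb N)) ≤
      Submodule.span Qb (Set.range fun j => ((bV N L j : V (N := N) L) : FNb N)) := by
  rw [← twist_zero_eq, ← span_I (N := N) isRatDiv_zero L]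
  apply Submodule.span_le.mpr
  intro f hf
  have hrepr := (bV N L).sum_repr ⟨f, hf⟩
  have hf' : f = ∑ j, ((bV N L).repr ⟨f, hf⟩ j) • ((bV N L j : V (N := N) L) : FNb N) := by
    have := congrArg (fun x : V (N := N) L => (x : FNb N)) hrepr
    simp only [AddSubmonoidClass.coe_finsetSum, SetLike.val_smul] at this
    exact this.symm
  rw [hf']
  refine Submodule.sum_mem _ fun j _ => ?_
  have hsm : ((bV N L).repr ⟨f, hf⟩ j) • ((bV N L j : V (N := N) L) : FNb N)
      = (algebraMap ℚ Qb ((bV N L).repr ⟨f, hf⟩ j)) • ((bV N L j : V (N := N) L) : FNb N) := by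
    rw [algebraMap_smul]
  rw [hsm]
  exact Submodule.smul_mem _ _ (Submodule.subset_span ⟨j, rfl⟩)

variable (N) in
/-- **binder-free (LT) on `ℚ̄(X₀(N))`** for the level bases `bV N L`. -/
theorem exists_hasLT_bV : ∃ c₁ : ℕ,
    ∀ {KK : Type*} [Field KK] [Algebra Qb KK] {T : Type} [DecidableEq T] [LinearOrder T]
      (φ : T → FNb N →ₐ[Qb] KK),
      (∀ (p p' : T) (f : FNb N), φ p f = φ p' f → p = p' ∨ f ∈ Set.range (algebraMap Qb (FNb N))) →
      ∀ (O : ValuationSubring KK), (∀ c : Qb, algebraMap Qb KK c ∈ O) →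
      (∀ p, ∃ P : Place Qb (FNb N), ∀ g, φ p g ∈ O ↔ g ∈ P.toValuationSubring) →
      ∀ (u : Place Qb (FNb N) → FNb N), (∀ Q : Place Qb (FNb N), Q.ord (u Q) = 1) →
      Fermat.Agent.GR.H.Star.Generic.HasLT O
        (κ := fun L : ℕ => Fin (dV N (L : ℤ)))
        (fun L p j => φ p ((bV N (L : ℤ) j : V (N := N) (L : ℤ)) : FNb N))
        (fun L G => G.card + c₁ ≤ L) := by
  have := Fermat.Agent.RR.ModularBar.isGen_jF N
  obtain ⟨c₁, hc₁⟩ := exists_hasLT_of_centres (k := Qb) (F := FNb N) (Fermat.Agent.S24.jF N)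
  refine ⟨c₁, ?_⟩
  intro KK _ _ T _ _ φ hgen O hO hcen u hu
  exact hc₁ φ hgen O hO hcen u hu (oo N)
    (κ := fun L : ℕ => Fin (dV N (L : ℤ)))
    (fun L j => ((bV N (L : ℤ) j : V (N := N) (L : ℤ)) : FNb N))
    (fun L j => bV_mem_single (L : ℤ) j) (fun L => le_span_bV_single (L : ℤ))

end Fermat.Agent.GR.H.Star.HasLTOscPL
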