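/-
GATE-R (S17) / node GR-H-STAR, binder (B1) (helper49): **`Family.LTBar N (oscC N)` is a theorem.**

Plug of `HasLTGenBar.hasLT_genBar` (binder-free concrete (LT)) at `inf := PL.oo N` and the level
bases `SpecBar.bF N L` (`bV_mem_single`, `le_span_bV_single` of helper50's `HasLTOscPL`).
-/
import Fermat.Agent.GR.H.Star.HasLTGenBar
import Fermat.Agent.GR.H.Star.HasLTOscPL
import Fermat.Agent.GR.H.Star.Family

set_option autoImplicit false

open AlgebraicCurve ModularCurve

namespace Fermat.Agent.GR.H.Star.LTBarPlug49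

open Fermat.Agent.GR.H.PL Fermat.Agent.GR.H.Star

/-- **(B1)**: the concrete (LT) contract of `Star/Family` holds at the (OSC) threshold. -/
theorem ltBar (N : ℕ) [NeZero N] : Family.LTBar N (HasLTGenBar.oscC N) := by
  intro e O hQ hres
  exact HasLTGenBar.hasLT_genBar N O hQ hres (oo N) (κ := fun L : ℕ => Fin (dV N (L : ℤ)))
    (fun L j => SpecBar.bF N L j)
    (fun L j => HasLTOscPL.bV_mem_single (L : ℤ) j)
    (fun L => HasLTOscPL.le_span_bV_single (L : ℤ))

/-- monotone form: any threshold above `oscC N` works. -/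
theorem ltBar_of_le (N : ℕ) [NeZero N] {c : ℕ} (hc : HasLTGenBar.oscC N ≤ c) :
    Family.LTBar N c := by
  intro e O hQ hres
  obtain ⟨a, d, h⟩ := ltBar N e O hQ hres
  exact ⟨a, d, fun L G hok => h L G (by omega)⟩

end Fermat.Agent.GR.H.Star.LTBarPlug49
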