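import Fermat.Agent.GR.H.Star.LTAsm
import Fermat.Agent.GR.H.LT.Newton

/-!
# GATE-R / H : (LT) for one group of rows at one level

`LTAsm.isMaxVal_minors` with the Newton factorisation `Newton.det_block_pairs` plugged in:
the only remaining inputs are the integrality and the residues of the block divided differences
(LT-DIAG) and one invertible residue minor (LT-OSC).
-/

set_option autoImplicit false

namespace Fermat.Agent.GR.H.Star.LTGroup

open Fermat.Agent.GR.H.Star.LTAsm Fermat.Agent.GR.H.LT.Newton

variable {K : Type*} [Field K] (O : ValuationSubring K)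
variable {ι : Type*} [Fintype ι] [DecidableEq ι] [LinearOrder ι]
variable {Q : Type*} [DecidableEq Q] {κ : Type*}

/-- The weight of a group of rows: scaling factors times the same-centre node differences. -/
noncomputable def weight (cen : ι → Q) (t lam : ι → K) : K :=
  (∏ p, lam p) * ∏ x ∈ blockPairs cen, (t x.2 - t x.1)

omit [DecidableEq ι] in
theorem weight_ne_zero (cen : ι → Q) (t lam : ι → K)
    (hinj : ∀ p p', cen p = cen p' → t p = t p' → p = p') (hlam : ∀ p, lam p ≠ 0) :
    weight cen t lam ≠ 0 := by
  unfold weight
  refine mul_ne_zero (Finset.prod_ne_zero_iff.2 fun p _ => hlam p) ?_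
  rw [← prod_blockLT_eq_prod_blockPairs cen fun c p => t p - t c]
  exact prod_blockLT_ne_zero cen t hinj

/-- **(LT) for one group.** Rows `p : ι` with centres `cen p`, nodes `t p` (pairwise distinct
inside a block), scaled entries `lam p * V p j`; if the block divided differences of `V` lie in
`O`, are congruent to constants `tau p j` modulo the nonunits, and one `tau`-minor is nonzero,
then the tuple of all minors has attained maximal valuation `v (weight cen t lam)`. -/
theorem isMaxVal_group {k : Type*} [Field k] [Algebra k K] (hk : ∀ x : k, algebraMap k K x ∈ O)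
    (cen : ι → Q) (t : ι → K) (hinj : ∀ p p', cen p = cen p' → t p = t p' → p = p')
    (lam : ι → K) (V : ι → κ → K)
    (hint : ∀ p j, DD cen t V p j ∈ O) (tau : ι → κ → k)
    (hres : ∀ p j, DD cen t V p j - algebraMap k K (tau p j) ∈ O.nonunits)
    (c0 : ι → κ) (hosc : Matrix.det (fun p q => tau p (c0 q)) ≠ 0) :
    IsMaxVal O (fun c : ι → κ => Matrix.det (fun p q => lam p * V p (c q)))
      (O.valuation (weight cen t lam)) :=
  isMaxVal_minors hk lam V (DD cen t V) (∏ x ∈ blockPairs cen, (t x.2 - t x.1))
    (fun c => det_block_pairs cen t hinj V c) hint tau hres c0 hosc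

/-- The same for an evaluation matrix `E` given with a factorisation `E p j = lam p * V p j`. -/
theorem isMaxVal_group' {k : Type*} [Field k] [Algebra k K] (hk : ∀ x : k, algebraMap k K x ∈ O)
    (cen : ι → Q) (t : ι → K) (hinj : ∀ p p', cen p = cen p' → t p = t p' → p = p')
    (lam : ι → K) (V E : ι → κ → K) (hE : ∀ p j, E p j = lam p * V p j)
    (hint : ∀ p j, DD cen t V p j ∈ O) (tau : ι → κ → k)
    (hres : ∀ p j, DD cen t V p j - algebraMap k K (tau p j) ∈ O.nonunits)
    (c0 : ι → κ) (hosc : Matrix.det (fun p q => tau p (c0 q)) ≠ 0) :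
    IsMaxVal O (fun c : ι → κ => Matrix.det (fun p q => E p (c q)))
      (O.valuation (weight cen t lam)) := by
  have h := isMaxVal_group O hk cen t hinj lam V hint tau hres c0 hosc
  have hfun : (fun c : ι → κ => Matrix.det (fun p q => E p (c q))) =
      fun c : ι → κ => Matrix.det (fun p q => lam p * V p (c q)) := by
    funext c
    congr 1
    funext p q
    exact hE p (c q)
  rw [hfun]; exact h

end Fermat.Agent.GR.H.Star.LTGroup
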