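/-
GATE-R (S17) / node GR-H-STAR-SPEC (helper90, 2nd seat of helper3's GR-H-STAR): **the specialisation
`(B, φ)` of `Generic.bound_of_hasLT`** at actual points of `X₀(N)`.

For ANY places `P p` (`p : Fin e`) of `ℚ̄(X₀(N))` there is ONE `ℚ`-subalgebra `B` of the generic
`e`-point field `KKBar N e` and ONE `ℚ`-algebra hom `φ : B → ℚ̄` such that

* `exists_spec`         : `genBar N p f ∈ B` and `φ (genBar N p f) = f(P p)` (`PlaceVal.valOf`) for every
                          `f` regular at `P p`;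
* `exists_spec_plucker` : every Plücker coordinate `Generic.plucker (fun p j => genBar N p (b L j)) G J`
                          of functions regular at the points of `G` lies in `B` and specialises to
                          the minor `det (valOf (P p) (b L (J q)))_{p, q ∈ G}` of the evaluation matrix;
* `exists_spec_evM`     : the same in helper63's names (`EvPlug.evM`, `CauchyBinet.minorsAll`,
                          `b L := EvPlug.bQ N L`).

Inputs: `Gen.exists_specialisation` (helper41) with `R p := ratSub (O_{P p})`, `ratVal`, and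
`Gen.valBar_eq_valOf`.
-/
import Mathlib
import Fermat.Agent.GR.H.Gen.ValOf
import Fermat.Agent.GR.H.Star.Generic
import Fermat.Agent.GR.H.PL.EvPlug
import Fermat.Agent.GR.H.PlaceValBridge

set_option autoImplicit false

open AlgebraicCurve ModularCurve

namespace Fermat.Agent.GR.H.Star.SpecMap

open Fermat.Agent.GR.H.Gen Fermat.Agent.GR.H.PlaceVal

/-! ### determinants in a subalgebra -/

section Det

variable {R A C : Type*} [CommRing R] [CommRing A] [CommRing C] [Algebra R A] [Algebra R C]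

/-- the determinant of a matrix with entries in a subalgebra lies in the subalgebra, and an algebra
hom on the subalgebra maps it to the determinant of the images. -/
theorem det_mem_and_map (B : Subalgebra R A) (φ : B →ₐ[R] C) {n : Type*} [Fintype n]
    [DecidableEq n] (M : Matrix n n A) (hM : ∀ i j, M i j ∈ B) :
    ∃ h : M.det ∈ B, φ ⟨M.det, h⟩ = Matrix.det (Matrix.of fun i j => φ ⟨M i j, hM i j⟩) := by
  set M' : Matrix n n B := Matrix.of fun i j => ⟨M i j, hM i j⟩ with hM'
  have h1 : M = B.val.mapMatrix M' := by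
    ext i j
    rfl
  have h2 : M.det = ((M'.det : B) : A) := by
    rw [h1, ← AlgHom.map_det]
    rfl
  have h : M.det ∈ B := by
    rw [h2]
    exact M'.det.2
  refine ⟨h, ?_⟩
  have h3 : (⟨M.det, h⟩ : B) = M'.det := Subtype.ext h2
  rw [h3, AlgHom.map_det]
  rfl

end Det

/-! ### the generic frame -/

section Gen

universe u

variable {k F : Type u} [Field k] [Field F] [Algebra k F] [IsAlgClosed k]

/-- **simultaneous specialisation at places of degree one** (over the constant field). -/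
theorem exists_spec_gen {e : ℕ} (P : Fin e → Place k F) (hdeg : ∀ p, (P p).deg = 1) :
    ∃ (B : Subalgebra k (KK k F e)) (Φ : B →ₐ[k] k),
      ∀ (p : Fin e) (f : F), f ∈ (P p).toValuationSubring →
        ∃ h : gen k F p f ∈ B, Φ ⟨gen k F p f, h⟩ = valOf (P p) f := by
  obtain ⟨B, Φ, hΦ⟩ := exists_specialisation k F
    (fun p => ratSub (P p).toValuationSubring (P p).algebraMap_mem')
    (fun p => ratVal (P p).toValuationSubring (P p).algebraMap_mem')
  refine ⟨B, Φ, fun p f hf => ?_⟩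
  obtain ⟨c, hc⟩ := exists_hasValue_of_deg_eq_one (hdeg p) hf
  obtain ⟨h1, h2⟩ := hΦ p ⟨f, c, hc⟩
  refine ⟨h1, ?_⟩
  rw [h2, ratVal_eq (P p).toValuationSubring (P p).algebraMap_mem' hc]
  exact (valOf_eq_of_valueAt ((hasValue_iff_valueAt (P p) f c).1 hc)).symm

end Gen

/-! ### the modular frame, over `ℚ` -/

section Modular

variable (N : ℕ) [NeZero N]

local notation "Qb" => AlgebraicClosure ℚ
local notation "FNb" => modularFunctionFieldBar N

/-- **the specialisation `(B, φ)`** at the places `P p`, as a `ℚ`-algebra hom on a `ℚ`-subalgebra. -/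
theorem exists_spec {e : ℕ} (P : Fin e → Place Qb FNb) :
    ∃ (B : Subalgebra ℚ (KKBar N e)) (φ : B →ₐ[ℚ] Qb),
      ∀ (p : Fin e) (f : FNb), f ∈ (P p).toValuationSubring →
        ∃ h : genBar N p f ∈ B, φ ⟨genBar N p f, h⟩ = valOf (P p) f := by
  obtain ⟨B, Φ, hΦ⟩ := exists_spec_gen P
    (fun p => Fermat.Agent.RR.ModularBar.deg_eq_one N (P p))
  refine ⟨B.restrictScalars ℚ,
    { toFun := fun x => Φ ⟨x.1, x.2⟩
      map_one' := map_one Φ
      map_mul' := fun x y => map_mul Φ ⟨x.1, x.2⟩ ⟨y.1, y.2⟩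
      map_zero' := map_zero Φ
      map_add' := fun x y => map_add Φ ⟨x.1, x.2⟩ ⟨y.1, y.2⟩
      commutes' := fun c => ?_ }, fun p f hf => ?_⟩
  · have h1 : (⟨((algebraMap ℚ (B.restrictScalars ℚ) c : B.restrictScalars ℚ) : KKBar N e),
        (algebraMap ℚ (B.restrictScalars ℚ) c).2⟩ : B) = algebraMap Qb B (algebraMap ℚ Qb c) := by
      apply Subtype.ext
      show algebraMap ℚ (KKBar N e) c = algebraMap Qb (KKBar N e) (algebraMap ℚ Qb c)
      exact IsScalarTower.algebraMap_apply ℚ Qb (KKBar N e) c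
    show Φ _ = _
    rw [h1, AlgHom.commutes]
    rfl
  · obtain ⟨h1, h2⟩ := hΦ p f hf
    exact ⟨h1, h2⟩

/-- **the specialisation of the Plücker coordinates.** -/
theorem exists_spec_plucker {e : ℕ} (P : Fin e → Place Qb FNb) {κ : ℕ → Type}
    (b : ∀ L, κ L → FNb) :
    ∃ (B : Subalgebra ℚ (KKBar N e)) (φ : B →ₐ[ℚ] Qb),
      (∀ (p : Fin e) (f : FNb), f ∈ (P p).toValuationSubring →
        ∃ h : genBar N p f ∈ B, φ ⟨genBar N p f, h⟩ = valOf (P p) f) ∧
      ∀ (L : ℕ) (G : Finset (Fin e)) (J : ↥G → κ L),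
        (∀ p ∈ G, ∀ j, b L j ∈ (P p).toValuationSubring) →
        ∃ h : Generic.plucker (fun (p : Fin e) (j : κ L) => genBar N p (b L j)) G J ∈ B,
          φ ⟨_, h⟩ = Matrix.det (Matrix.of fun p q : ↥G => valOf (P p.1) (b L (J q))) := by
  obtain ⟨B, φ, hφ⟩ := exists_spec N P
  refine ⟨B, φ, hφ, fun L G J hreg => ?_⟩
  have hM : ∀ p q : ↥G, (Matrix.of fun p q : ↥G => genBar N p.1 (b L (J q))) p q ∈ B :=
    fun p q => (hφ p.1 (b L (J q)) (hreg p.1 p.2 (J q))).1
  obtain ⟨h, hdet⟩ := det_mem_and_map B φ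
    (Matrix.of fun p q : ↥G => genBar N p.1 (b L (J q))) hM
  refine ⟨h, ?_⟩
  rw [show (⟨Generic.plucker (fun (p : Fin e) (j : κ L) => genBar N p (b L j)) G J, h⟩ : B)
    = ⟨(Matrix.of fun p q : ↥G => genBar N p.1 (b L (J q))).det, h⟩ from rfl, hdet]
  congr 1
  ext p q
  exact (hφ p.1 (b L (J q)) (hreg p.1 p.2 (J q))).2

/-- the basis functions of `L(m ∞)` are regular off `∞`. -/
theorem bQ_mem_valuationSubring (m : ℤ) (j : Fin (Fermat.Agent.GR.H.PL.dV N m))
    {v : Place Qb FNb} (hv : v ≠ Fermat.Agent.GR.H.PL.oo N) :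
    Fermat.Agent.GR.H.PL.EvPlug.bQ N m j ∈ v.toValuationSubring :=
  Fermat.Agent.GR.H.PL.Ev.mem_valuationSubring_of_mem
    (Fermat.Agent.GR.H.PL.EvPlug.bQ_mem_L m j) (Fermat.Agent.GR.H.PL.EvPlug.twist_zero_apply hv)

/-- **the specialisation in helper63's names**: the Plücker coordinates of the generic points in the
fixed bases `bQ N L` of `L(L ∞)` specialise to ALL maximal minors of the evaluation matrices
`evM N L (P|_G)`, for every level `L` and every group `G` of points off `∞`. -/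
theorem exists_spec_evM {e : ℕ} (P : Fin e → Place Qb FNb) :
    ∃ (B : Subalgebra ℚ (KKBar N e)) (φ : B →ₐ[ℚ] Qb),
      (∀ (p : Fin e) (f : FNb), f ∈ (P p).toValuationSubring →
        ∃ h : genBar N p f ∈ B, φ ⟨genBar N p f, h⟩ = valOf (P p) f) ∧
      ∀ (L : ℕ) (G : Finset (Fin e)) (J : ↥G → Fin (Fermat.Agent.GR.H.PL.dV N (L : ℤ))),
        (∀ p ∈ G, P p ≠ Fermat.Agent.GR.H.PL.oo N) →
        ∃ h : Generic.plucker (fun (p : Fin e) (j : Fin (Fermat.Agent.GR.H.PL.dV N (L : ℤ))) =>
            genBar N p (Fermat.Agent.GR.H.PL.EvPlug.bQ N (L : ℤ) j)) G J ∈ B,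
          φ ⟨_, h⟩ = Fermat.Agent.GR.H.CauchyBinet.minorsAll
            (Fermat.Agent.GR.H.PL.EvPlug.evM N (L : ℤ) (fun p : ↥G => P p.1)) J := by
  obtain ⟨B, φ, hφ, hpl⟩ := exists_spec_plucker N P
    (κ := fun L : ℕ => Fin (Fermat.Agent.GR.H.PL.dV N (L : ℤ)))
    (fun L => Fermat.Agent.GR.H.PL.EvPlug.bQ N (L : ℤ))
  refine ⟨B, φ, hφ, fun L G J hoo => ?_⟩
  obtain ⟨h, hv⟩ := hpl L G J fun p hp j => bQ_mem_valuationSubring N (L : ℤ) j (hoo p hp)
  refine ⟨h, ?_⟩
  rw [hv, Fermat.Agent.GR.H.CauchyBinet.minorsAll_apply]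
  congr 1

end Modular

end Fermat.Agent.GR.H.Star.SpecMap
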