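import Mathlib

/-!
# GATE-R / H : finite maxima of parameter-wise constants

The cube identities are produced with one constant per level `N` and per tuple of degrees;
the `HeightFrame` fields ask for one constant for all levels `N ≤ M` (the degrees are then bounded
by `M` as well).  This file contains the (trivial) uniformisation, for one, two and three
divisors.
-/

set_option autoImplicit false

namespace Fermat.Agent.GR.H.Star.Uniform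

/-- General form: a family indexed by a level `N` and a tuple of degrees `e : ι → ℕ`. -/
theorem exists_uniform {ι : Type*} [Fintype ι] [DecidableEq ι] {𝔇 : Type*} (deg : 𝔇 → ℕ)
    (P : ℕ → (ι → 𝔇) → Prop) (f : ℕ → (ι → 𝔇) → ℝ)
    (h : ∀ (N : ℕ) (e : ι → ℕ), ∃ C : ℝ, ∀ D : ι → 𝔇, (∀ i, deg (D i) = e i) → P N D →
      |f N D| ≤ C) (M : ℕ) :
    ∃ C : ℝ, ∀ (N : ℕ) (D : ι → 𝔇), N ≤ M → (∀ i, deg (D i) ≤ M) → P N D → |f N D| ≤ C := by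
  classical
  choose C hC using h
  refine ⟨∑ N ∈ Finset.range (M + 1),
    ∑ e ∈ Fintype.piFinset (fun _ : ι => Finset.range (M + 1)), |C N e|, ?_⟩
  intro N D hN hD hP
  have h1 : |f N D| ≤ C N (fun i => deg (D i)) := hC N _ D (fun _ => rfl) hP
  have h2 : C N (fun i => deg (D i)) ≤ |C N (fun i => deg (D i))| := le_abs_self _
  have hmem : (fun i => deg (D i)) ∈ Fintype.piFinset (fun _ : ι => Finset.range (M + 1)) := by
    rw [Fintype.mem_piFinset]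
    intro i
    exact Finset.mem_range.2 (Nat.lt_succ_of_le (hD i))
  have h3 : |C N (fun i => deg (D i))| ≤
      ∑ e ∈ Fintype.piFinset (fun _ : ι => Finset.range (M + 1)), |C N e| :=
    Finset.single_le_sum (f := fun e => |C N e|) (fun e _ => abs_nonneg _) hmem
  have h4 : (∑ e ∈ Fintype.piFinset (fun _ : ι => Finset.range (M + 1)), |C N e|) ≤
      ∑ N' ∈ Finset.range (M + 1),
        ∑ e ∈ Fintype.piFinset (fun _ : ι => Finset.range (M + 1)), |C N' e| :=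
    Finset.single_le_sum
      (f := fun N' => ∑ e ∈ Fintype.piFinset (fun _ : ι => Finset.range (M + 1)), |C N' e|)
      (fun N' _ => Finset.sum_nonneg fun e _ => abs_nonneg _)
      (Finset.mem_range.2 (Nat.lt_succ_of_le hN))
  linarith

/-- One divisor. -/
theorem exists_uniform₁ {𝔇 : Type*} (deg : 𝔇 → ℕ) (P : ℕ → 𝔇 → Prop) (f : ℕ → 𝔇 → ℝ)
    (h : ∀ N e : ℕ, ∃ C : ℝ, ∀ D, deg D = e → P N D → |f N D| ≤ C) (M : ℕ) :
    ∃ C : ℝ, ∀ (N : ℕ) (D : 𝔇), N ≤ M → deg D ≤ M → P N D → |f N D| ≤ C := by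
  obtain ⟨C, hC⟩ := exists_uniform (ι := Fin 1) deg (fun N D => P N (D 0)) (fun N D => f N (D 0))
    (fun N e => by
      obtain ⟨C, hC⟩ := h N (e 0)
      exact ⟨C, fun D hD hP => hC (D 0) (hD 0) hP⟩) M
  exact ⟨C, fun N D hN hD hP => hC N (fun _ => D) hN (fun _ => hD) hP⟩

/-- Two divisors. -/
theorem exists_uniform₂ {𝔇 : Type*} (deg : 𝔇 → ℕ) (P : ℕ → 𝔇 → 𝔇 → Prop)
    (f : ℕ → 𝔇 → 𝔇 → ℝ)
    (h : ∀ N e₁ e₂ : ℕ, ∃ C : ℝ, ∀ D₁ D₂, deg D₁ = e₁ → deg D₂ = e₂ → P N D₁ D₂ →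
      |f N D₁ D₂| ≤ C) (M : ℕ) :
    ∃ C : ℝ, ∀ (N : ℕ) (D₁ D₂ : 𝔇), N ≤ M → deg D₁ ≤ M → deg D₂ ≤ M → P N D₁ D₂ →
      |f N D₁ D₂| ≤ C := by
  obtain ⟨C, hC⟩ := exists_uniform (ι := Fin 2) deg (fun N D => P N (D 0) (D 1))
    (fun N D => f N (D 0) (D 1))
    (fun N e => by
      obtain ⟨C, hC⟩ := h N (e 0) (e 1)
      exact ⟨C, fun D hD hP => hC (D 0) (D 1) (hD 0) (hD 1) hP⟩) M
  refine ⟨C, fun N D₁ D₂ hN h1 h2 hP => ?_⟩
  have := hC N ![D₁, D₂] hN (fun i => by fin_cases i <;> simpa) (by simpa using hP)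
  simpa using this

/-- Three divisors. -/
theorem exists_uniform₃ {𝔇 : Type*} (deg : 𝔇 → ℕ) (P : ℕ → 𝔇 → 𝔇 → 𝔇 → Prop)
    (f : ℕ → 𝔇 → 𝔇 → 𝔇 → ℝ)
    (h : ∀ N e₁ e₂ e₃ : ℕ, ∃ C : ℝ, ∀ D₁ D₂ D₃, deg D₁ = e₁ → deg D₂ = e₂ → deg D₃ = e₃ →
      P N D₁ D₂ D₃ → |f N D₁ D₂ D₃| ≤ C) (M : ℕ) :
    ∃ C : ℝ, ∀ (N : ℕ) (D₁ D₂ D₃ : 𝔇), N ≤ M → deg D₁ ≤ M → deg D₂ ≤ M → deg D₃ ≤ M →
      P N D₁ D₂ D₃ → |f N D₁ D₂ D₃| ≤ C := by
  obtain ⟨C, hC⟩ := exists_uniform (ι := Fin 3) deg (fun N D => P N (D 0) (D 1) (D 2))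
    (fun N D => f N (D 0) (D 1) (D 2))
    (fun N e => by
      obtain ⟨C, hC⟩ := h N (e 0) (e 1) (e 2)
      exact ⟨C, fun D hD hP => hC (D 0) (D 1) (D 2) (hD 0) (hD 1) (hD 2) hP⟩) M
  refine ⟨C, fun N D₁ D₂ D₃ hN h1 h2 h3 hP => ?_⟩
  have := hC N ![D₁, D₂, D₃] hN (fun i => by fin_cases i <;> simpa) (by simpa using hP)
  simpa using this

end Fermat.Agent.GR.H.Star.Uniform
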